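import Mathlib
import Fermat.Agent.LevelOne.Ramanujan

/-!
# S16 / weight theorem for constants at level one: shared definitions

Integer `q`-expansions `Pz`, `Qz`, `Rz` of `E₂`, `E₄`, `E₆`, the weights `(4, 6)` of the
isobaric polynomial ring, the operator `θ = q d/dq` on power series and the comparison of
`Pz`, `Qz`, `Rz` with the analytic `q`-expansions.
-/

set_option autoImplicit false

open UpperHalfPlane ModularForm ModularFormClass MatrixGroups EisensteinSeries
open scoped ArithmeticFunction.sigma

namespace Fermat.Agent.S16.WT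

open PowerSeries

/-- The weights of the two variables `X 0 ↔ E₄`, `X 1 ↔ E₆`. -/
def wt : Fin 2 → ℕ := ![4, 6]

@[simp] theorem wt_zero : wt 0 = 4 := rfl
@[simp] theorem wt_one : wt 1 = 6 := rfl

/-- `q`-expansion of `E₂` with integer coefficients. -/
noncomputable def Pz : ℤ⟦X⟧ := PowerSeries.mk fun n => if n = 0 then 1 else -24 * (σ 1 n : ℤ)

/-- `q`-expansion of `E₄` with integer coefficients. -/
noncomputable def Qz : ℤ⟦X⟧ := PowerSeries.mk fun n => if n = 0 then 1 else 240 * (σ 3 n : ℤ)

/-- `q`-expansion of `E₆` with integer coefficients. -/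
noncomputable def Rz : ℤ⟦X⟧ := PowerSeries.mk fun n => if n = 0 then 1 else -504 * (σ 5 n : ℤ)

theorem coeff_Pz (n : ℕ) : coeff n Pz = if n = 0 then 1 else -24 * (σ 1 n : ℤ) := coeff_mk _ _
theorem coeff_Qz (n : ℕ) : coeff n Qz = if n = 0 then 1 else 240 * (σ 3 n : ℤ) := coeff_mk _ _
theorem coeff_Rz (n : ℕ) : coeff n Rz = if n = 0 then 1 else -504 * (σ 5 n : ℤ) := coeff_mk _ _

@[simp] theorem constantCoeff_Pz : constantCoeff Pz = 1 := by
  rw [← coeff_zero_eq_constantCoeff_apply, coeff_Pz]; simp
@[simp] theorem constantCoeff_Qz : constantCoeff Qz = 1 := by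
  rw [← coeff_zero_eq_constantCoeff_apply, coeff_Qz]; simp
@[simp] theorem constantCoeff_Rz : constantCoeff Rz = 1 := by
  rw [← coeff_zero_eq_constantCoeff_apply, coeff_Rz]; simp

/-- The operator `θ = q d/dq` on power series. -/
noncomputable def theta (R : Type*) [CommSemiring R] (f : R⟦X⟧) : R⟦X⟧ := X * d⁄dX R f

theorem coeff_theta {R : Type*} [CommSemiring R] (f : R⟦X⟧) (n : ℕ) :
    coeff n (theta R f) = n * coeff n f := by
  rcases n with _ | n
  · simp [theta]
  · rw [theta, coeff_succ_X_mul, coeff_derivative]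
    push_cast
    ring

theorem theta_add {R : Type*} [CommSemiring R] (f g : R⟦X⟧) :
    theta R (f + g) = theta R f + theta R g := by
  simp [theta, mul_add]

theorem theta_mul {R : Type*} [CommSemiring R] (f g : R⟦X⟧) :
    theta R (f * g) = f * theta R g + g * theta R f := by
  simp only [theta, Derivation.leibniz, smul_eq_mul]
  ring

theorem theta_C {R : Type*} [CommSemiring R] (r : R) : theta R (C r) = 0 := by
  simp [theta]

theorem theta_one {R : Type*} [CommSemiring R] : theta R (1 : R⟦X⟧) = 0 := by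
  simp [theta]

theorem theta_map {R S : Type*} [CommSemiring R] [CommSemiring S] (φ : R →+* S) (f : R⟦X⟧) :
    (theta R f).map φ = theta S (f.map φ) := by
  ext n
  simp [coeff_theta]

/-! ### Base change of `Pz`, `Qz`, `Rz` to an arbitrary commutative ring -/

/-- `E₂` with coefficients in `R`. -/
noncomputable def PR (R : Type*) [CommRing R] : R⟦X⟧ := Pz.map (Int.castRingHom R)
/-- `E₄` with coefficients in `R`. -/
noncomputable def QR (R : Type*) [CommRing R] : R⟦X⟧ := Qz.map (Int.castRingHom R)
/-- `E₆` with coefficients in `R`. -/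
noncomputable def RR (R : Type*) [CommRing R] : R⟦X⟧ := Rz.map (Int.castRingHom R)

section basechange
variable {R S : Type*} [CommRing R] [CommRing S] (φ : R →+* S)

theorem map_PR : (PR R).map φ = PR S := by
  ext n; simp [PR]
theorem map_QR : (QR R).map φ = QR S := by
  ext n; simp [QR]
theorem map_RR : (RR R).map φ = RR S := by
  ext n; simp [RR]

@[simp] theorem constantCoeff_PR : constantCoeff (PR R) = 1 := by
  rw [← coeff_zero_eq_constantCoeff_apply, PR, coeff_map, coeff_zero_eq_constantCoeff_apply,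
    constantCoeff_Pz]; simp
@[simp] theorem constantCoeff_QR : constantCoeff (QR R) = 1 := by
  rw [← coeff_zero_eq_constantCoeff_apply, QR, coeff_map, coeff_zero_eq_constantCoeff_apply,
    constantCoeff_Qz]; simp
@[simp] theorem constantCoeff_RR : constantCoeff (RR R) = 1 := by
  rw [← coeff_zero_eq_constantCoeff_apply, RR, coeff_map, coeff_zero_eq_constantCoeff_apply,
    constantCoeff_Rz]; simp

end basechange

/-! ### Comparison with the analytic `q`-expansions -/

theorem map_Qz : Qz.map (Int.castRingHom ℂ) = qExpansion 1 E₄ := by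
  ext n
  rw [coeff_map, coeff_Qz]
  have h := E_qExpansion_coeff (k := 4) (by norm_num) ⟨2, rfl⟩ n
  rw [show (qExpansion 1 E₄) = qExpansion 1 (E (k := 4) (by norm_num)) from rfl, h]
  split_ifs with hn
  · simp
  · have hb : bernoulli 4 = -1 / 30 := by decide +kernel
    simp only [hb, eq_intCast]
    push_cast
    ring

theorem map_Rz : Rz.map (Int.castRingHom ℂ) = qExpansion 1 E₆ := by
  ext n
  rw [coeff_map, coeff_Rz]
  have h := E_qExpansion_coeff (k := 6) (by norm_num) ⟨3, rfl⟩ n
  rw [show (qExpansion 1 E₆) = qExpansion 1 (E (k := 6) (by norm_num)) from rfl, h]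
  split_ifs with hn
  · simp
  · have hb : bernoulli 6 = 1 / 42 := by decide +kernel
    simp only [hb, eq_intCast]
    push_cast
    ring

/-- Uniqueness of `q`-expansion coefficients for a plain function `ℍ → ℂ`. -/
theorem qExpansion_coeff_unique_fun {f : ℍ → ℂ} {h : ℝ} {c : ℕ → ℂ} (hh : 0 < h)
    (hfanalytic : AnalyticAt ℂ (cuspFunction h f) 0)
    (hf : ∀ τ : ℍ, HasSum (fun m ↦ c m • Function.Periodic.qParam h τ ^ m) (f τ)) (m : ℕ) :
    c m = (qExpansion h f).coeff m := by
  have h1 := (hasFPowerSeriesOnBall_cuspFunction hh hfanalytic hf).hasFPowerSeriesAt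
  have h2 := hfanalytic.hasFPowerSeriesAt
  have h3 := congr_arg (FormalMultilinearSeries.coeff · m) (h1.eq_formalMultilinearSeries h2)
  simp only [FormalMultilinearSeries.coeff_ofScalars] at h3
  rw [h3, qExpansion_coeff, div_eq_mul_inv, mul_comm]

theorem hasSum_E2 (τ : ℍ) :
    HasSum (fun m : ℕ ↦ (if m = 0 then (1 : ℂ) else -24 * (σ 1 m : ℂ)) •
      Function.Periodic.qParam 1 τ ^ m) (E2 τ) := by
  have := hasSum_qExpansion_E2 (z := τ)
  simpa only [Function.Periodic.qParam, Complex.ofReal_one, div_one] using this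

theorem coeff_qExpansion_E2 (n : ℕ) :
    (qExpansion 1 E2).coeff n = (if n = 0 then (1 : ℂ) else -24 * (σ 1 n : ℂ)) :=
  (qExpansion_coeff_unique_fun one_pos
    Fermat.Agent.LevelOne.Ramanujan.analyticAt_cuspFunction_E2 hasSum_E2 n).symm

theorem map_Pz : Pz.map (Int.castRingHom ℂ) = qExpansion 1 E2 := by
  ext n
  rw [coeff_map, coeff_Pz, coeff_qExpansion_E2]
  split_ifs with hn
  · simp
  · simp only [eq_intCast]
    push_cast
    ring

end Fermat.Agent.S16.WT
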