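import Mathlib
import Fermat.Agent.LevelOne.Ramanujan

/-!
# PROJECT E (S16), slice (WT-a): Ramanujan's identity for `E₂`

`D E₂ = (E₂² - E₄) / 12`, where `D = (2πi)⁻¹ d/dτ`.

Proof: `φ := D E₂ - E₂²/12` is invariant under the weight-`4` slash action of `SL(2, ℤ)` (the
quasi-modular defect `h = (1/2ζ(2)) D2 γ` of `E₂` satisfies `D h = h²/12`), holomorphic and tends to
`-1/12` at `i∞`; weight `4` is one-dimensional.
-/

set_option autoImplicit false

open UpperHalfPlane ModularForm SlashInvariantForm SlashInvariantFormClass ModularFormClass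
  CuspFormClass MatrixGroups OnePoint Filter EisensteinSeries Asymptotics Derivative
open scoped Topology Manifold Real

namespace Fermat.Agent.S16.WT.RamanujanE2

open Fermat.Agent.LevelOne.Ramanujan

/-- `D2 γ` is holomorphic on `ℍ`. -/
theorem mdifferentiable_D2 (γ : SL(2, ℤ)) : MDiff (D2 γ) := by
  rw [UpperHalfPlane.mdifferentiable_iff]
  have h : DifferentiableOn ℂ
      (fun w : ℂ => (2 * π * Complex.I * (γ 1 0 : ℂ)) / denom (γ : GL (Fin 2) ℝ) w)
      upperHalfPlaneSet := by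
    intro w hw
    have hw' : denom (γ : GL (Fin 2) ℝ) w ≠ 0 := denom_ne_zero (γ : GL (Fin 2) ℝ) ⟨w, hw⟩
    have hd : DifferentiableAt ℂ (fun z : ℂ => denom (γ : GL (Fin 2) ℝ) z) w := by
      simp only [denom]
      fun_prop
    exact ((differentiableAt_const _).div hd hw').differentiableWithinAt
  refine h.congr fun w hw => ?_
  simp only [Function.comp_apply, D2, ofComplex_apply_of_im_pos hw]

/-- `D (D2 γ) = -(c / (cz + d))²`. -/
theorem D_D2 (γ : SL(2, ℤ)) (z : ℍ) :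
    D (D2 γ) z = -((γ 1 0 : ℂ) / denom (γ : GL (Fin 2) ℝ) z) ^ 2 := by
  have hz : denom (γ : GL (Fin 2) ℝ) z ≠ 0 := denom_ne_zero _ z
  have h1 : HasDerivAt (fun w : ℂ => denom (γ : GL (Fin 2) ℝ) w ^ (-1 : ℤ))
      (((-1 : ℤ) : ℂ) * ((γ : GL (Fin 2) ℝ) 1 0 : ℂ) *
        denom (γ : GL (Fin 2) ℝ) z ^ ((-1 : ℤ) - 1)) z :=
    hasDerivAt_denom_zpow (γ : GL (Fin 2) ℝ) (-1) z
  have h2 : HasDerivAt
      (fun w : ℂ => (2 * π * Complex.I * (γ 1 0 : ℂ)) * denom (γ : GL (Fin 2) ℝ) w ^ (-1 : ℤ))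
      ((2 * π * Complex.I * (γ 1 0 : ℂ)) * (((-1 : ℤ) : ℂ) * ((γ : GL (Fin 2) ℝ) 1 0 : ℂ) *
        denom (γ : GL (Fin 2) ℝ) z ^ ((-1 : ℤ) - 1))) z := h1.const_mul _
  have hcongr : (D2 γ ∘ ofComplex) =ᶠ[𝓝 (z : ℂ)]
      fun w : ℂ => (2 * π * Complex.I * (γ 1 0 : ℂ)) * denom (γ : GL (Fin 2) ℝ) w ^ (-1 : ℤ) := by
    filter_upwards [isOpen_upperHalfPlaneSet.mem_nhds z.im_pos] with w hw
    simp only [Function.comp_apply, D2, ofComplex_apply_of_im_pos hw, zpow_neg_one]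
    simp [div_eq_mul_inv]
  have h3 := (h2.congr_of_eventuallyEq hcongr).deriv
  have hc : ((γ : GL (Fin 2) ℝ) 1 0 : ℂ) = (γ 1 0 : ℂ) := by simp
  rw [normalizedDerivOfComplex, h3, hc]
  have hpi : (2 * (π : ℂ) * Complex.I) ≠ 0 := by
    simp [Real.pi_ne_zero, Complex.I_ne_zero]
  rw [show ((-1 : ℤ) - 1) = -2 by norm_num, zpow_neg, zpow_two]
  field_simp
  push_cast
  ring

/-- The weight-`4` invariant function `D E₂ - E₂² / 12`. -/
noncomputable def phi : ℍ → ℂ := fun z => D E2 z - 12⁻¹ * E2 z ^ 2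

theorem phi_eq : phi = serreDerivative 2 E2 + (12⁻¹ : ℂ) • (E2 * E2) := by
  ext z
  simp only [phi, serreDerivative_apply, Pi.add_apply, Pi.smul_apply, Pi.mul_apply, smul_eq_mul]
  ring

theorem mdifferentiable_phi : MDiff phi := by
  rw [phi_eq]
  exact (serreDerivative_mdifferentiable 2 E2_mdifferentiable).add
    ((E2_mdifferentiable.mul E2_mdifferentiable).const_smul _)

theorem phi_slash (γ : SL(2, ℤ)) : phi ∣[(4 : ℤ)] γ = phi := by
  have hE : E2 ∣[(2 : ℤ)] γ = E2 - (1 / (2 * riemannZeta 2)) • D2 γ := E2_slash_action γ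
  have hD2 := mdifferentiable_D2 γ
  have hsm : MDiff ((1 / (2 * riemannZeta 2)) • D2 γ) := hD2.const_smul _
  have h1 : serreDerivative 2 E2 ∣[(4 : ℤ)] γ = serreDerivative 2 (E2 ∣[(2 : ℤ)] γ) := by
    have := serreDerivative_slash_equivariant (k := 2) E2_mdifferentiable (γ := γ)
    simpa using this
  have h2 : (E2 * E2) ∣[(4 : ℤ)] γ = (E2 ∣[(2 : ℤ)] γ) * (E2 ∣[(2 : ℤ)] γ) := by
    have := ModularForm.mul_slash_SL2 2 2 γ E2 E2
    simpa using this
  rw [phi_eq, SlashAction.add_slash, ModularForm.SL_smul_slash, h1, h2, hE,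
    serreDerivative_sub 2 E2 _ E2_mdifferentiable hsm,
    serreDerivative_smul 2 _ _ hD2]
  ext z
  have hz : denom (γ : GL (Fin 2) ℝ) z ≠ 0 := denom_ne_zero _ z
  have hζ : riemannZeta 2 = (π : ℂ) ^ 2 / 6 := riemannZeta_two
  have hpi : (π : ℂ) ≠ 0 := by exact_mod_cast Real.pi_ne_zero
  simp only [Pi.add_apply, Pi.sub_apply, Pi.smul_apply, Pi.mul_apply, smul_eq_mul,
    serreDerivative_apply, D_D2 γ z]
  have hD2z : D2 γ z = (2 * π * Complex.I * (γ 1 0 : ℂ)) / denom (γ : GL (Fin 2) ℝ) z := rfl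
  rw [hD2z, hζ]
  field_simp
  ring_nf
  simp only [Complex.I_sq]
  ring

theorem tendsto_phi : Tendsto phi atImInfty (𝓝 (-(12⁻¹ : ℂ))) := by
  have h1 := tendsto_D_atImInfty E2_mdifferentiable tendsto_E2
  have h2 := (tendsto_E2.pow 2).const_mul (12⁻¹ : ℂ)
  have h3 := h1.sub h2
  have hphi : phi = fun x => D E2 x - 12⁻¹ * E2 x ^ 2 := rfl
  rw [hphi]
  simpa using h3

/-- `D E₂ - E₂²/12` as a level-one modular form of weight `4`. -/
noncomputable def phiMF : ModularForm 𝒮ℒ 4 where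
  toFun := phi
  slash_action_eq' := fun _ ⟨γ, hγ⟩ ↦ hγ ▸ phi_slash γ
  holo' := mdifferentiable_phi
  bdd_at_cusps' {c} hc := by
    rw [Subgroup.IsArithmetic.isCusp_iff_isCusp_SL2Z] at hc
    rw [isBoundedAt_iff_forall_SL2Z hc]
    intro γ _
    rw [phi_slash γ, IsBoundedAtImInfty, BoundedAtFilter]
    exact tendsto_phi.isBigO_one ℝ

theorem phiMF_apply (z : ℍ) : phiMF z = phi z := rfl

/-- **Ramanujan's identity** `D E₂ = (E₂² - E₄) / 12`. -/
theorem D_E2 (z : ℍ) : D E2 z = (E2 z ^ 2 - E₄ z) / 12 := by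
  have h := eq_smul_of_rank_one levelOne_weight_four_rank_one E₄ phiMF E₄_coeff_zero
  have h0 : (qExpansion 1 phiMF).coeff 0 = -(12⁻¹ : ℂ) := coeff_zero_of_tendsto phiMF tendsto_phi
  rw [h0] at h
  have h4 := congrArg (fun f : ModularForm 𝒮ℒ 4 ↦ f z) h
  simp only [_root_.smul_apply, smul_eq_mul, phiMF_apply, phi] at h4
  have : D E2 z = 12⁻¹ * E2 z ^ 2 + -(12⁻¹ : ℂ) * E₄ z := by
    rw [← h4]
    ring
  rw [this]
  ring

/-- Function form. -/
theorem D_E2' : D E2 = fun z => (E2 z ^ 2 - E₄ z) / 12 := funext D_E2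

end Fermat.Agent.S16.WT.RamanujanE2
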