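/-
Project E (S16), slice (WT-b): `q`-expansion of `D F = (2πi)⁻¹ F'` and Ramanujan's identities
as identities of integer power series.
-/
import Mathlib
import Fermat.Agent.LevelOne.Ramanujan
import Fermat.Agent.S24.LevelOneFacts
import Fermat.Agent.S16.WT.Defs
import Fermat.Agent.S16.WT.RamanujanE2

set_option autoImplicit false

open UpperHalfPlane hiding I
open Complex ModularForm ModularFormClass EisensteinSeries MatrixGroups Filter Derivative
open scoped Real Manifold Topology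

namespace Fermat.Agent.S16.WT.QExpD

open PowerSeries

local notation "𝕢" => Function.Periodic.qParam

/-! ### Periodicity, holomorphy and boundedness of `D F` -/

theorem periodic_D {F : ℍ → ℂ} (hper : Function.Periodic (F ∘ ofComplex) 1) :
    Function.Periodic (D F ∘ ofComplex) 1 := by
  intro w
  by_cases hw : 0 < w.im
  · have hw1 : 0 < (w + 1).im := by simpa using hw
    simp only [Function.comp_apply, ofComplex_apply_of_im_pos hw1, ofComplex_apply_of_im_pos hw,
      normalizedDerivOfComplex]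
    congr 1
    have h1 : (F ∘ ofComplex) = fun z => (F ∘ ofComplex) (z + 1) := by
      funext z
      exact (hper z).symm
    show deriv (F ∘ ofComplex) (w + 1) = deriv (F ∘ ofComplex) w
    conv_rhs => rw [h1]
    rw [deriv_comp_add_const]
  · have hw' : w.im ≤ 0 := not_lt.1 hw
    have hw1 : (w + 1).im ≤ 0 := by simpa using hw'
    simp [ofComplex_apply_of_im_nonpos hw1, ofComplex_apply_of_im_nonpos hw']

theorem isBoundedAtImInfty_D {F : ℍ → ℂ} (hper : Function.Periodic (F ∘ ofComplex) 1)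
    (hol : MDiff F) (hbdd : IsBoundedAtImInfty F) : IsBoundedAtImInfty (D F) :=
  (Fermat.Agent.S24.LevelOneFacts.isZeroAtImInfty_D hper hol hbdd).isBoundedAtImInfty

theorem analyticAt_cuspFunction_D {F : ℍ → ℂ} (hper : Function.Periodic (F ∘ ofComplex) 1)
    (hol : MDiff F) (hbdd : IsBoundedAtImInfty F) : AnalyticAt ℂ (cuspFunction 1 (D F)) 0 :=
  analyticAt_cuspFunction_zero one_pos (periodic_D hper)
    (normalizedDerivOfComplex_mdifferentiable hol) (isBoundedAtImInfty_D hper hol hbdd)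

/-! ### Termwise differentiation of the `q`-expansion -/

/-- Inside the unit disc, the derivative of the cusp function is given by the termwise
differentiated `q`-expansion. -/
theorem hasSum_deriv_cuspFunction {F : ℍ → ℂ} (hper : Function.Periodic (F ∘ ofComplex) 1)
    (hol : MDiff F) (hbdd : IsBoundedAtImInfty F) {q : ℂ} (hq : ‖q‖ < 1) :
    HasSum (fun n : ℕ => ((n : ℂ) + 1) * (qExpansion 1 F).coeff (n + 1) * q ^ n)
      (deriv (cuspFunction 1 F) q) := by
  have han : AnalyticAt ℂ (cuspFunction 1 F) 0 :=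
    analyticAt_cuspFunction_zero one_pos hper hol hbdd
  have hps := hasFPowerSeriesOnBall_cuspFunction (f := F)
    (c := fun m : ℕ => (qExpansion 1 F).coeff m) one_pos han
    (hasSum_qExpansion one_pos hper hol hbdd)
  have hfd := hps.fderiv
  have hq' : q ∈ Metric.eball (0 : ℂ) 1 := by
    rw [Metric.mem_eball, edist_zero_right]
    rw [enorm_eq_nnnorm]
    exact_mod_cast hq
  have hs := hfd.hasSum hq'
  have hs1 := (ContinuousLinearMap.apply ℂ ℂ (1 : ℂ)).hasSum hs
  rw [zero_add] at hs1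
  have hderiv : (ContinuousLinearMap.apply ℂ ℂ (1 : ℂ)) (fderiv ℂ (cuspFunction 1 F) q) =
      deriv (cuspFunction 1 F) q := by
    simp [ContinuousLinearMap.apply_apply]
  rw [hderiv] at hs1
  have hfun : (fun n : ℕ => ((n : ℂ) + 1) * (qExpansion 1 F).coeff (n + 1) * q ^ n) =
      fun b => ((ContinuousLinearMap.apply ℂ ℂ) (1 : ℂ))
        (((FormalMultilinearSeries.ofScalars ℂ
          fun m => (coeff m) (qExpansion 1 F)).derivSeries b) fun _ => q) := by
    funext n
    rw [ContinuousLinearMap.apply_apply, FormalMultilinearSeries.apply_eq_pow_smul_coeff,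
      smul_apply, FormalMultilinearSeries.derivSeries_coeff_one,
      FormalMultilinearSeries.coeff_ofScalars]
    simp only [smul_eq_mul, nsmul_eq_mul]
    push_cast
    ring
  rw [hfun]
  exact hs1

/-- The `q`-expansion of `D F` converges to `D F`, with coefficients `n * a_n`. -/
theorem hasSum_D {F : ℍ → ℂ} (hper : Function.Periodic (F ∘ ofComplex) 1)
    (hol : MDiff F) (hbdd : IsBoundedAtImInfty F) (τ : ℍ) :
    HasSum (fun m : ℕ => ((m : ℂ) * (qExpansion 1 F).coeff m) • 𝕢 1 τ ^ m) (D F τ) := by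
  have hq : ‖𝕢 1 (τ : ℂ)‖ < 1 := Function.Periodic.norm_qParam_lt_one one_pos τ.im_pos
  have h1 := (hasSum_deriv_cuspFunction hper hol hbdd hq).mul_left (𝕢 1 (τ : ℂ))
  rw [← Fermat.Agent.S24.LevelOneFacts.D_eq_qParam_mul_deriv_cuspFunction hper hol hbdd τ] at h1
  rw [← hasSum_nat_add_iff' 1]
  simp only [Finset.range_one, Finset.sum_singleton, Nat.cast_zero, zero_mul, zero_smul, sub_zero]
  have hfun : (fun n : ℕ => ((((n + 1 : ℕ) : ℂ)) * (qExpansion 1 F).coeff (n + 1)) •
      𝕢 1 (τ : ℂ) ^ (n + 1)) = fun i : ℕ => 𝕢 1 (τ : ℂ) *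
        (((i : ℂ) + 1) * (coeff (i + 1)) (qExpansion 1 F) * 𝕢 1 (τ : ℂ) ^ i) := by
    funext n
    simp only [smul_eq_mul]
    push_cast
    ring
  rw [hfun]
  exact h1

/-- **`q`-expansion of the normalised derivative**: `qExpansion (D F) = q d/dq (qExpansion F)`. -/
theorem qExpansion_D {F : ℍ → ℂ} (hper : Function.Periodic (F ∘ ofComplex) 1) (hol : MDiff F)
    (hbdd : IsBoundedAtImInfty F) :
    qExpansion 1 (D F) = PowerSeries.X * PowerSeries.derivative ℂ (qExpansion 1 F) := by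
  ext m
  have h := qExpansion_coeff_unique_fun one_pos (analyticAt_cuspFunction_D hper hol hbdd)
    (hasSum_D hper hol hbdd) m
  rw [← h]
  have := coeff_theta (R := ℂ) (qExpansion 1 F) m
  rw [theta] at this
  rw [this]

theorem qExpansion_D_eq_theta {F : ℍ → ℂ} (hper : Function.Periodic (F ∘ ofComplex) 1)
    (hol : MDiff F) (hbdd : IsBoundedAtImInfty F) :
    qExpansion 1 (D F) = theta ℂ (qExpansion 1 F) :=
  qExpansion_D hper hol hbdd

/-! ### `q`-expansions of `D E₄`, `D E₆`, `D E₂` -/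

section forms

variable {k : ℤ} (f : ModularForm 𝒮ℒ k)

theorem periodic_MF : Function.Periodic ((f : ℍ → ℂ) ∘ ofComplex) 1 :=
  SlashInvariantFormClass.periodic_comp_ofComplex f one_mem_strictPeriods_SL

theorem analyticAt_MF : AnalyticAt ℂ (cuspFunction 1 (f : ℍ → ℂ)) 0 :=
  ModularFormClass.analyticAt_cuspFunction_zero f one_pos one_mem_strictPeriods_SL

theorem qExpansion_D_MF :
    qExpansion 1 (D (f : ℍ → ℂ)) = theta ℂ (qExpansion 1 (f : ℍ → ℂ)) :=
  qExpansion_D_eq_theta (periodic_MF f) (ModularFormClass.holo f)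
    (ModularFormClass.bdd_at_infty f)

end forms

theorem qExpansion_D_E2 : qExpansion 1 (D E2) = theta ℂ (qExpansion 1 E2) :=
  qExpansion_D_eq_theta Fermat.Agent.LevelOne.Ramanujan.periodic_E2 E2_mdifferentiable
    isBoundedAtImInfty_E2

theorem analyticAt_E2 : AnalyticAt ℂ (cuspFunction 1 E2) 0 :=
  Fermat.Agent.LevelOne.Ramanujan.analyticAt_cuspFunction_E2

/-- Injectivity of the base change `ℤ⟦X⟧ → ℂ⟦X⟧`. -/
theorem map_intCast_injective :
    Function.Injective (PowerSeries.map (Int.castRingHom ℂ) : ℤ⟦X⟧ → ℂ⟦X⟧) := by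
  intro a b hab
  ext n
  have := congrArg (coeff n) hab
  simpa [coeff_map] using this

theorem C_mul_inv_smul (c : ℂ) (hc : c ≠ 0) (y : ℂ⟦X⟧) : C c * (c⁻¹ • y) = y := by
  ext n
  rw [coeff_C_mul, coeff_smul, smul_eq_mul, ← mul_assoc, mul_inv_cancel₀ hc, one_mul]

theorem analyticAt_mul {f g : ℍ → ℂ} (hf : AnalyticAt ℂ (cuspFunction 1 f) 0)
    (hg : AnalyticAt ℂ (cuspFunction 1 g) 0) : AnalyticAt ℂ (cuspFunction 1 (f * g)) 0 := by
  rw [cuspFunction_mul hf.continuousAt hg.continuousAt]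
  exact hf.mul hg

theorem analyticAt_sub {f g : ℍ → ℂ} (hf : AnalyticAt ℂ (cuspFunction 1 f) 0)
    (hg : AnalyticAt ℂ (cuspFunction 1 g) 0) : AnalyticAt ℂ (cuspFunction 1 (f - g)) 0 := by
  rw [cuspFunction_sub hf.continuousAt hg.continuousAt]
  exact hf.sub hg

/-- Ramanujan: `3 θ Q = P Q - R` in `ℤ⟦q⟧`. -/
theorem ramanujan_Qz : 3 * theta ℤ Qz = Pz * Qz - Rz := by
  apply map_intCast_injective
  have hfun : D (E₄ : ℍ → ℂ) = (3⁻¹ : ℂ) • ((E2 * (E₄ : ℍ → ℂ)) - (E₆ : ℍ → ℂ)) := by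
    funext z
    rw [Fermat.Agent.LevelOne.Ramanujan.D_E₄]
    simp only [Pi.smul_apply, Pi.sub_apply, Pi.mul_apply, smul_eq_mul]
    ring
  have h4 := analyticAt_MF E₄
  have h6 := analyticAt_MF E₆
  have hmul := analyticAt_mul analyticAt_E2 h4
  have hsub := analyticAt_sub hmul h6
  have h1 : theta ℂ (qExpansion 1 (E₄ : ℍ → ℂ)) =
      (3⁻¹ : ℂ) • (qExpansion 1 E2 * qExpansion 1 (E₄ : ℍ → ℂ) - qExpansion 1 (E₆ : ℍ → ℂ)) := by
    rw [← qExpansion_D_MF E₄, hfun, qExpansion_smul hsub, qExpansion_sub hmul h6,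
      qExpansion_mul analyticAt_E2 h4]
  rw [map_mul, map_sub, map_mul, map_ofNat, theta_map, map_Qz, map_Pz, map_Rz, h1,
    ← map_ofNat (C (R := ℂ)) 3]
  exact C_mul_inv_smul 3 (by norm_num) _

/-- Ramanujan: `2 θ R = P R - Q²` in `ℤ⟦q⟧`. -/
theorem ramanujan_Rz : 2 * theta ℤ Rz = Pz * Rz - Qz ^ 2 := by
  apply map_intCast_injective
  have hfun : D (E₆ : ℍ → ℂ) =
      (2⁻¹ : ℂ) • ((E2 * (E₆ : ℍ → ℂ)) - (E₄ : ℍ → ℂ) * (E₄ : ℍ → ℂ)) := by
    funext z
    rw [Fermat.Agent.LevelOne.Ramanujan.D_E₆]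
    simp only [Pi.smul_apply, Pi.sub_apply, Pi.mul_apply, smul_eq_mul]
    ring
  have h4 := analyticAt_MF E₄
  have h6 := analyticAt_MF E₆
  have hmul := analyticAt_mul analyticAt_E2 h6
  have h44 := analyticAt_mul h4 h4
  have hsub := analyticAt_sub hmul h44
  have h1 : theta ℂ (qExpansion 1 (E₆ : ℍ → ℂ)) =
      (2⁻¹ : ℂ) • (qExpansion 1 E2 * qExpansion 1 (E₆ : ℍ → ℂ) -
        qExpansion 1 (E₄ : ℍ → ℂ) * qExpansion 1 (E₄ : ℍ → ℂ)) := by
    rw [← qExpansion_D_MF E₆, hfun, qExpansion_smul hsub, qExpansion_sub hmul h44,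
      qExpansion_mul analyticAt_E2 h6, qExpansion_mul h4 h4]
  rw [map_mul, map_sub, map_mul, map_pow, map_ofNat, theta_map, map_Qz, map_Pz, map_Rz, h1,
    ← map_ofNat (C (R := ℂ)) 2, pow_two]
  exact C_mul_inv_smul 2 (by norm_num) _

/-- Ramanujan: `12 θ P = P² - Q` in `ℤ⟦q⟧`. -/
theorem ramanujan_Pz : 12 * theta ℤ Pz = Pz ^ 2 - Qz := by
  apply map_intCast_injective
  have hfun : D E2 = (12⁻¹ : ℂ) • ((E2 * E2) - (E₄ : ℍ → ℂ)) := by
    funext z
    rw [Fermat.Agent.S16.WT.RamanujanE2.D_E2]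
    simp only [Pi.smul_apply, Pi.sub_apply, Pi.mul_apply, smul_eq_mul]
    ring
  have h4 := analyticAt_MF E₄
  have hmul := analyticAt_mul analyticAt_E2 analyticAt_E2
  have hsub := analyticAt_sub hmul h4
  have h1 : theta ℂ (qExpansion 1 E2) =
      (12⁻¹ : ℂ) • (qExpansion 1 E2 * qExpansion 1 E2 - qExpansion 1 (E₄ : ℍ → ℂ)) := by
    rw [← qExpansion_D_E2, hfun, qExpansion_smul hsub, qExpansion_sub hmul h4,
      qExpansion_mul analyticAt_E2 analyticAt_E2]
  rw [map_mul, map_sub, map_pow, map_ofNat, theta_map, map_Qz, map_Pz, h1,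
    ← map_ofNat (C (R := ℂ)) 12, pow_two]
  exact C_mul_inv_smul 12 (by norm_num) _

/-- The same identities over an arbitrary commutative ring. -/
theorem ramanujan_QR (R : Type*) [CommRing R] : 3 * theta R (QR R) = PR R * QR R - RR R := by
  have := congrArg (PowerSeries.map (Int.castRingHom R)) ramanujan_Qz
  simpa only [map_mul, map_sub, map_ofNat, theta_map, PR, QR, RR] using this

theorem ramanujan_RR (R : Type*) [CommRing R] :
    2 * theta R (RR R) = PR R * RR R - QR R ^ 2 := by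
  have := congrArg (PowerSeries.map (Int.castRingHom R)) ramanujan_Rz
  simpa only [map_mul, map_sub, map_pow, map_ofNat, theta_map, PR, QR, RR] using this

theorem ramanujan_PR (R : Type*) [CommRing R] : 12 * theta R (PR R) = PR R ^ 2 - QR R := by
  have := congrArg (PowerSeries.map (Int.castRingHom R)) ramanujan_Pz
  simpa only [map_mul, map_sub, map_pow, map_ofNat, theta_map, PR, QR, RR] using this

end Fermat.Agent.S16.WT.QExpD
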