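/-
PROJECT E (S16), slice E-WT, sub-slice (WT-d) (helper24): THE STRUCTURE THEOREM WITH COEFFICIENTS.

`R` a commutative ring in which `6` is a unit, `ι : R →+* ℂ` injective, `Qr Rr : R⟦X⟧` models of the
`q`-expansions of `E₄`, `E₆` (`Qr.map ι = qExpansion 1 E₄`, `Rr.map ι = qExpansion 1 E₆`).  Then every
level-one modular form `F` of weight `k` whose `q`-expansion has coefficients in `R`
(`f.map ι = qExpansion 1 F`) is an isobaric polynomial of weight `k` in `Qr`, `Rr` WITH COEFFICIENTS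
IN `R`:

  `exists_isobaric : ∃ Φ : MvPolynomial (Fin 2) R, Φ.IsWeightedHomogeneous ![4, 6] k.toNat ∧
      MvPolynomial.aeval ![Qr, Rr] Φ = f`.

Proof: induction on the weight: subtract `a₀ E₄^a E₆^b` (`4a + 6b = k`), divide by
`Δ = (E₄³ - E₆²)/1728 = q + ...` (Mathlib `qExpansion_eq_qExpansion_discriminant_mul`; the division
stays in `R⟦X⟧` because `Δ_R = X · unit`), induct.
-/
import Mathlib
import Fermat.Agent.S16.WT.Defs

set_option autoImplicit false

noncomputable section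

namespace Fermat.Agent.S16.WT.Structure

open UpperHalfPlane ModularForm ModularFormClass MatrixGroups EisensteinSeries PowerSeries

/-! ### Pure power-series algebra -/

section PS

variable {R : Type*} [CommRing R]

/-- Division by a power series `D = X · unit`: if `D = X + ...` and `f` has no constant term then
`D ∣ f`. -/
theorem exists_eq_mul_of_coeff {D f : R⟦X⟧} (hD0 : coeff 0 D = 0) (hD1 : coeff 1 D = 1)
    (hf0 : coeff 0 f = 0) : ∃ g : R⟦X⟧, f = D * g := by
  obtain ⟨D₁, rfl⟩ : (X : R⟦X⟧) ∣ D := X_dvd_iff.mpr (by simpa using hD0)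
  obtain ⟨f₁, rfl⟩ : (X : R⟦X⟧) ∣ f := X_dvd_iff.mpr (by simpa using hf0)
  have hu : IsUnit D₁ := by
    rw [isUnit_iff_constantCoeff]
    have : coeff 1 (X * D₁) = constantCoeff D₁ := by
      rw [show (1 : ℕ) = 0 + 1 from rfl, coeff_succ_X_mul, coeff_zero_eq_constantCoeff]
    rw [← this, hD1]
    exact isUnit_one
  obtain ⟨u, rfl⟩ := hu
  exact ⟨f₁ * ↑u⁻¹, by rw [mul_assoc, ← mul_assoc (↑u : R⟦X⟧), mul_comm (↑u : R⟦X⟧) f₁, mul_assoc,
    Units.mul_inv, mul_one]⟩

theorem isUnit_1728 (h6 : IsUnit (6 : R)) : IsUnit (1728 : R) := by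
  have h : (1728 : R) = 6 * 6 * 6 * (2 * 2 * 2) := by norm_num
  have h2 : IsUnit (2 : R) := by
    have : (6 : R) = 2 * 3 := by norm_num
    rw [this] at h6
    exact isUnit_of_mul_isUnit_left h6
  rw [h]
  exact ((h6.mul h6).mul h6).mul ((h2.mul h2).mul h2)

end PS

/-! ### The `q`-expansion of `Δ` -/

section Delta

/-- `E₄³ - E₆²` as a form of weight `12`. -/
def cubeSubSq : ModularForm 𝒮ℒ 12 :=
  ModularForm.mcast (by decide) (E₄.pow 3) - ModularForm.mcast (by decide) (E₆.pow 2)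

theorem coe_cubeSubSq : (⇑cubeSubSq : ℍ → ℂ) = (1728 : ℂ) • ⇑CuspForm.discriminant := by
  ext z
  have h := discriminant_eq_E₄_cube_sub_E₆_sq z
  simp only [cubeSubSq, FunLike.coe_sub, coe_mcast, ModularForm.coe_pow, Pi.sub_apply,
    Pi.pow_apply, Pi.smul_apply, smul_eq_mul, CuspForm.coe_discriminant]
  rw [h]
  ring

theorem qExpansion_cubeSubSq :
    qExpansion 1 cubeSubSq = qExpansion 1 E₄ ^ 3 - qExpansion 1 E₆ ^ 2 := by
  simp only [cubeSubSq, FunLike.coe_sub, coe_mcast,
    ModularForm.qExpansion_sub one_pos one_mem_strictPeriods_SL,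
    ModularForm.qExpansion_pow one_pos one_mem_strictPeriods_SL]

/-- `1728 Δ = E₄³ - E₆²` on `q`-expansions. -/
theorem qExpansion_discriminant_eq :
    (1728 : ℂ) • qExpansion 1 ModularForm.discriminant =
      qExpansion 1 E₄ ^ 3 - qExpansion 1 E₆ ^ 2 := by
  rw [← qExpansion_cubeSubSq, coe_cubeSubSq,
    ModularForm.qExpansion_smul one_pos one_mem_strictPeriods_SL, CuspForm.coe_discriminant]

theorem coeff_zero_qExpansion_discriminant :
    coeff 0 (qExpansion 1 ModularForm.discriminant) = 0 := by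
  have h := discriminant_qExpansion_order
  exact coeff_of_lt_order 0 (by rw [h]; exact zero_lt_one)

theorem qExpansion_discriminant_ne_zero : qExpansion 1 ModularForm.discriminant ≠ 0 := by
  intro h
  have h1 := discriminant_qExpansion_coeff_one
  rw [h] at h1
  simp at h1

end Delta

/-! ### The models over `R` -/

section Model

variable {R : Type*} [CommRing R] (ι : R →+* ℂ) (hι : Function.Injective ι)
  (h6 : IsUnit (6 : R)) (Qr Rr : R⟦X⟧) (hQ : Qr.map ι = qExpansion 1 E₄)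
  (hR : Rr.map ι = qExpansion 1 E₆)

/-- The model over `R` of the `q`-expansion of `Δ`. -/
def deltaR : R⟦X⟧ := C (↑(isUnit_1728 h6).unit⁻¹ : R) * (Qr ^ 3 - Rr ^ 2)

include hQ hR in
theorem map_deltaR : (deltaR h6 Qr Rr).map ι = qExpansion 1 ModularForm.discriminant := by
  have h1 : (1728 : ℂ) • (deltaR h6 Qr Rr).map ι = (1728 : ℂ) • qExpansion 1 ModularForm.discriminant := by
    rw [qExpansion_discriminant_eq, deltaR, map_mul, map_sub, map_pow, map_pow, hQ, hR, map_C,
      smul_eq_C_mul, ← mul_assoc, ← map_mul]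
    have : (1728 : ℂ) * ι (↑(isUnit_1728 h6).unit⁻¹ : R) = 1 := by
      have h := congrArg ι ((isUnit_1728 h6).unit.mul_inv)
      rw [map_mul, map_one, IsUnit.unit_spec] at h
      rw [← h]
      congr 1
      exact (map_ofNat ι 1728).symm
    rw [this, map_one, one_mul]
  have h2 : (1728 : ℂ) ≠ 0 := by norm_num
  exact smul_right_injective _ h2 h1

include hι hQ hR in
theorem coeff_zero_deltaR : coeff 0 (deltaR h6 Qr Rr) = 0 := by
  apply hι
  rw [map_zero, ← coeff_map, map_deltaR ι h6 Qr Rr hQ hR, coeff_zero_qExpansion_discriminant]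

include hι hQ hR in
theorem coeff_one_deltaR : coeff 1 (deltaR h6 Qr Rr) = 1 := by
  apply hι
  rw [map_one, ← coeff_map, map_deltaR ι h6 Qr Rr hQ hR, discriminant_qExpansion_coeff_one]

end Model

/-! ### The monomial forms `E₄^a E₆^b` -/

section Monomial

/-- `E₄^a E₆^b` as a form of weight `k = 4a + 6b`. -/
def monoForm (a b : ℕ) {k : ℤ} (h : (a : ℤ) * 4 + (b : ℤ) * 6 = k) : ModularForm 𝒮ℒ k :=
  ModularForm.mcast h ((E₄.pow a).mul (E₆.pow b))

theorem qExpansion_monoForm (a b : ℕ) {k : ℤ} (h : (a : ℤ) * 4 + (b : ℤ) * 6 = k) :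
    qExpansion 1 (monoForm a b h) = qExpansion 1 E₄ ^ a * qExpansion 1 E₆ ^ b := by
  rw [monoForm, coe_mcast, ModularForm.qExpansion_mul one_pos one_mem_strictPeriods_SL,
    ModularForm.qExpansion_pow one_pos one_mem_strictPeriods_SL,
    ModularForm.qExpansion_pow one_pos one_mem_strictPeriods_SL]

/-- Every even weight `k ≥ 0`, `k ≠ 2`, is `4a + 6b`. -/
theorem exists_weight_decomp {k : ℤ} (h0 : 0 ≤ k) (hev : Even k) (h2 : k ≠ 2) :
    ∃ a b : ℕ, (a : ℤ) * 4 + (b : ℤ) * 6 = k := by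
  obtain ⟨m, rfl⟩ := hev
  have hm0 : 0 ≤ m := by omega
  have hm1 : m ≠ 1 := by omega
  lift m to ℕ using hm0
  rcases Nat.even_or_odd' m with ⟨j, rfl | rfl⟩
  · exact ⟨j, 0, by push_cast; ring⟩
  · have hj : 1 ≤ j := by
      rcases j with _ | j
      · exact absurd rfl hm1
      · omega
    exact ⟨j - 1, 1, by push_cast [Nat.cast_sub hj]; ring⟩

end Monomial

/-! ### The induction step -/

section Step

variable {R : Type*} [CommRing R] (ι : R →+* ℂ) (hι : Function.Injective ι)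
  (h6 : IsUnit (6 : R)) (Qr Rr : R⟦X⟧) (hQ : Qr.map ι = qExpansion 1 E₄)
  (hR : Rr.map ι = qExpansion 1 E₆)

include hι hQ hR in
/-- **The induction step**: `f = a₀ Q^a R^b + Δ_R · g` with `g` the `q`-expansion over `R` of a form
of weight `k - 12`. -/
theorem exists_step {k : ℤ} (a b : ℕ) (hab : (a : ℤ) * 4 + (b : ℤ) * 6 = k)
    (F : ModularForm 𝒮ℒ k) (f : R⟦X⟧) (hf : f.map ι = qExpansion 1 F) :
    ∃ (G : ModularForm 𝒮ℒ (k - 12)) (g : R⟦X⟧), g.map ι = qExpansion 1 G ∧
      f = C (coeff 0 f) * Qr ^ a * Rr ^ b + deltaR h6 Qr Rr * g := by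
  set a₀ : R := coeff 0 f with ha₀
  -- the cusp form `F - a₀ E₄^a E₆^b`
  set F' : ModularForm 𝒮ℒ k := F - (ι a₀) • monoForm a b hab with hF'
  set f' : R⟦X⟧ := f - C a₀ * Qr ^ a * Rr ^ b with hf'
  have hqF' : qExpansion 1 F' = f'.map ι := by
    rw [hF', FunLike.coe_sub, ModularForm.qExpansion_sub one_pos one_mem_strictPeriods_SL,
      FunLike.coe_smul, ModularForm.qExpansion_smul one_pos one_mem_strictPeriods_SL,
      qExpansion_monoForm, hf', map_sub, map_mul, map_mul, map_pow, map_pow, hQ, hR, map_C, hf,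
      smul_eq_C_mul, mul_assoc]
  have hQ0 : coeff 0 Qr = 1 := by
    apply hι
    rw [map_one, ← coeff_map, hQ]
    exact E_qExpansion_coeff_zero _ ⟨2, rfl⟩
  have hR0 : coeff 0 Rr = 1 := by
    apply hι
    rw [map_one, ← coeff_map, hR]
    exact E_qExpansion_coeff_zero _ ⟨3, rfl⟩
  have hf'0 : coeff 0 f' = 0 := by
    rw [hf']
    simp only [coeff_zero_eq_constantCoeff, map_sub, map_mul, map_pow, constantCoeff_C]
    rw [← coeff_zero_eq_constantCoeff_apply, ← coeff_zero_eq_constantCoeff_apply,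
      ← coeff_zero_eq_constantCoeff_apply, hQ0, hR0, ← ha₀]
    ring
  have hcusp : coeff 0 (qExpansion 1 F') = 0 := by
    rw [hqF', coeff_map, hf'0, map_zero]
  obtain ⟨g, hg⟩ := exists_eq_mul_of_coeff (coeff_zero_deltaR ι hι h6 Qr Rr hQ hR)
    (coeff_one_deltaR ι hι h6 Qr Rr hQ hR) hf'0
  refine ⟨CuspForm.discriminantEquiv (F'.toCuspForm hcusp), g, ?_, ?_⟩
  · have h1 := qExpansion_eq_qExpansion_discriminant_mul F' hcusp
    rw [hqF', hg, map_mul, map_deltaR ι h6 Qr Rr hQ hR] at h1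
    exact mul_left_cancel₀ qExpansion_discriminant_ne_zero h1
  · rw [← hg, hf']
    ring

end Step

/-! ### The structure theorem -/

section Main

variable {R : Type*} [CommRing R] (ι : R →+* ℂ) (hι : Function.Injective ι)
  (h6 : IsUnit (6 : R)) (Qr Rr : R⟦X⟧) (hQ : Qr.map ι = qExpansion 1 E₄)
  (hR : Rr.map ι = qExpansion 1 E₆)

include hι in
theorem eq_zero_of_form_eq_zero {k : ℤ} {F : ModularForm 𝒮ℒ k} (hF : F = 0) {f : R⟦X⟧}
    (hf : f.map ι = qExpansion 1 F) : f = 0 := by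
  apply PowerSeries.map_injective ι hι
  rw [hf, hF, map_zero]
  exact (ModularForm.qExpansion_eq_zero_iff one_pos one_mem_strictPeriods_SL _).mpr rfl

/-- The weight vector `(4, 6)`. -/
abbrev wt46 : Fin 2 → ℕ := ![4, 6]

theorem isWeightedHomogeneous_mono (c : R) (a b n : ℕ) (h : a * 4 + b * 6 = n) :
    (MvPolynomial.C c * MvPolynomial.X 0 ^ a * MvPolynomial.X 1 ^ b :
      MvPolynomial (Fin 2) R).IsWeightedHomogeneous wt46 n := by
  have h1 := ((MvPolynomial.isWeightedHomogeneous_C (σ := Fin 2) wt46 c).mul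
    ((MvPolynomial.isWeightedHomogeneous_X R wt46 0).pow a)).mul
    ((MvPolynomial.isWeightedHomogeneous_X R wt46 1).pow b)
  have h2 : 0 + a • wt46 0 + b • wt46 1 = n := by
    simp only [wt46, Matrix.cons_val_zero, Matrix.cons_val_one, smul_eq_mul, zero_add]
    exact h
  rwa [h2] at h1

theorem isWeightedHomogeneous_cubeSubSq :
    (MvPolynomial.X 0 ^ 3 - MvPolynomial.X 1 ^ 2 :
      MvPolynomial (Fin 2) R).IsWeightedHomogeneous wt46 12 := by
  have h1 := (MvPolynomial.isWeightedHomogeneous_X R wt46 0).pow 3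
  have h2 := (MvPolynomial.isWeightedHomogeneous_X R wt46 1).pow 2
  have e1 : 3 • wt46 0 = 12 := by simp [wt46]
  have e2 : 2 • wt46 1 = 12 := by simp [wt46]
  rw [e1] at h1
  rw [e2] at h2
  rw [sub_eq_add_neg]
  refine h1.add ?_
  have := (MvPolynomial.isWeightedHomogeneous_C (σ := Fin 2) wt46 (-1 : R)).mul h2
  rw [zero_add] at this
  simpa using this

include hι h6 hQ hR in
/-- **The structure theorem with coefficients**: a level-one form of weight `k` with `q`-expansion
over `R` is an isobaric polynomial of weight `k` in `E₄`, `E₆` over `R`. -/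
theorem exists_isobaric {k : ℤ} (F : ModularForm 𝒮ℒ k) (f : R⟦X⟧)
    (hf : f.map ι = qExpansion 1 F) :
    ∃ Φ : MvPolynomial (Fin 2) R, Φ.IsWeightedHomogeneous ![4, 6] k.toNat ∧
      MvPolynomial.aeval ![Qr, Rr] Φ = f := by
  induction hn : k.toNat using Nat.strong_induction_on generalizing k F f with
  | _ n ih =>
  -- trivial weights
  by_cases hF : F = 0
  · refine ⟨0, MvPolynomial.isWeightedHomogeneous_zero R _ _, ?_⟩
    rw [map_zero, eq_zero_of_form_eq_zero ι hι hF hf]
  have hk0 : 0 ≤ k := by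
    by_contra hneg
    push Not at hneg
    exact hF (rank_zero_iff_forall_zero.mp (levelOne_neg_weight_rank_zero hneg) F)
  have hev : Even k := by
    rcases Int.even_or_odd k with h | h
    · exact h
    · exact absurd (levelOne_odd_weight_eq_zero h F) hF
  have hk2 : k ≠ 2 := by
    rintro rfl
    exact hF (rank_zero_iff_forall_zero.mp levelOne_weight_two_rank_zero F)
  obtain ⟨a, b, hab⟩ := exists_weight_decomp hk0 hev hk2
  obtain ⟨G, g, hg, hfg⟩ := exists_step ι hι h6 Qr Rr hQ hR a b hab F f hf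
  obtain ⟨a₀, ha₀⟩ : ∃ a₀ : R, a₀ = coeff 0 f := ⟨_, rfl⟩
  rw [← ha₀] at hfg
  have habn : a * 4 + b * 6 = n := by
    have : ((a * 4 + b * 6 : ℕ) : ℤ) = (n : ℤ) := by
      rw [← hn, Int.toNat_of_nonneg hk0, ← hab]
      push_cast
      ring
    exact_mod_cast this
  by_cases hk12 : k < 12
  · -- `G = 0`
    have hG : G = 0 := rank_zero_iff_forall_zero.mp (levelOne_neg_weight_rank_zero (by omega)) G
    have hg0 : g = 0 := eq_zero_of_form_eq_zero ι hι hG hg
    refine ⟨MvPolynomial.C a₀ * MvPolynomial.X 0 ^ a * MvPolynomial.X 1 ^ b,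
      isWeightedHomogeneous_mono _ a b n habn, ?_⟩
    rw [hfg, hg0, mul_zero, add_zero]
    simp
  · push Not at hk12
    have hlt : (k - 12).toNat < n := by
      rw [← hn]
      omega
    obtain ⟨Ψ, hΨ, hΨe⟩ := ih (k - 12).toNat hlt G g hg rfl
    have h12 : 12 + (k - 12).toNat = n := by
      rw [← hn]
      omega
    refine ⟨MvPolynomial.C a₀ * MvPolynomial.X 0 ^ a * MvPolynomial.X 1 ^ b +
      MvPolynomial.C (↑(isUnit_1728 h6).unit⁻¹ : R) *
        (MvPolynomial.X 0 ^ 3 - MvPolynomial.X 1 ^ 2) * Ψ, ?_, ?_⟩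
    · refine (isWeightedHomogeneous_mono _ a b n habn).add ?_
      have h1 := ((MvPolynomial.isWeightedHomogeneous_C (σ := Fin 2) wt46
        (↑(isUnit_1728 h6).unit⁻¹ : R)).mul isWeightedHomogeneous_cubeSubSq).mul hΨ
      rw [zero_add, h12] at h1
      exact h1
    · rw [hfg, deltaR, map_add, map_mul, map_mul, map_mul, map_mul, map_sub, hΨe]
      simp

omit hQ hR in
include hι h6 in
/-- The structure theorem for the base-changed integral models `QR R`, `RR R` of `WT/Defs`. -/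
theorem exists_isobaric_QR {k : ℤ} (F : ModularForm 𝒮ℒ k) (f : R⟦X⟧)
    (hf : f.map ι = qExpansion 1 F) :
    ∃ Φ : MvPolynomial (Fin 2) R, Φ.IsWeightedHomogeneous Fermat.Agent.S16.WT.wt k.toNat ∧
      MvPolynomial.aeval ![Fermat.Agent.S16.WT.QR R, Fermat.Agent.S16.WT.RR R] Φ = f :=
  exists_isobaric ι hι h6 (Fermat.Agent.S16.WT.QR R) (Fermat.Agent.S16.WT.RR R)
    ((Fermat.Agent.S16.WT.map_QR ι).trans Fermat.Agent.S16.WT.map_Qz)
    ((Fermat.Agent.S16.WT.map_RR ι).trans Fermat.Agent.S16.WT.map_Rz) F f hf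

end Main

end Fermat.Agent.S16.WT.Structure
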