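import Mathlib
import Fermat.Agent.S16.WT.Defs

/-!
# S16 / weight theorem: the Ramanujan derivation on isobaric polynomials

`dRam` is the derivation of `κ[X₀, X₁]` with `dX₀ = -4 X₁`, `dX₁ = -6 X₀²`.  For power series
`P Q R` satisfying Ramanujan's differential equations, and `Φ` isobaric of weight `k`,
`12 θ(Φ(Q,R)) = (dRam Φ)(Q,R) + k P Φ(Q,R)`.
-/

set_option autoImplicit false

namespace Fermat.Agent.S16.WT

open MvPolynomial
open scoped PowerSeries

variable {κ : Type*} [CommRing κ]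

/-- The Ramanujan derivation: `dX₀ = -4 X₁`, `dX₁ = -6 X₀²`. -/
noncomputable def dRam (κ : Type*) [CommRing κ] :
    Derivation κ (MvPolynomial (Fin 2) κ) (MvPolynomial (Fin 2) κ) :=
  (-4 * X 1 : MvPolynomial (Fin 2) κ) • pderiv 0 + (-6 * X 0 ^ 2 : MvPolynomial (Fin 2) κ) • pderiv 1

theorem dRam_apply (Φ : MvPolynomial (Fin 2) κ) :
    dRam κ Φ = -4 * X 1 * pderiv 0 Φ + -6 * X 0 ^ 2 * pderiv 1 Φ := by
  simp [dRam]

@[simp] theorem dRam_X0 : dRam κ (X 0) = -4 * X 1 := by
  rw [dRam_apply, pderiv_X_self, pderiv_X_of_ne (by decide)]; ring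

@[simp] theorem dRam_X1 : dRam κ (X 1) = -6 * X 0 ^ 2 := by
  rw [dRam_apply, pderiv_X_self, pderiv_X_of_ne (by decide)]; ring

/-- `X₀³ - X₁²` is killed by `dRam`. -/
theorem dRam_disc : dRam κ (X 0 ^ 3 - X 1 ^ 2) = 0 := by
  rw [map_sub, Derivation.leibniz_pow, Derivation.leibniz_pow, dRam_X0, dRam_X1]
  simp only [smul_eq_mul, nsmul_eq_mul]
  push_cast
  ring

/-- If `Φ` is isobaric of weight `k < wt i` then `pderiv i Φ = 0`. -/
theorem pderiv_eq_zero_of_weight_lt {k : ℕ} {Φ : MvPolynomial (Fin 2) κ}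
    (hΦ : Φ.IsWeightedHomogeneous wt k) (i : Fin 2) (hk : k < wt i) : pderiv i Φ = 0 := by
  ext m
  rw [coeff_pderiv, coeff_zero]
  by_cases h : coeff (m + Finsupp.single i 1) Φ = 0
  · rw [h, zero_mul]
  · exfalso
    have := hΦ h
    rw [map_add, Finsupp.weight_single, one_smul] at this
    omega

theorem isWeightedHomogeneous_dRam {k : ℕ} {Φ : MvPolynomial (Fin 2) κ}
    (hΦ : Φ.IsWeightedHomogeneous wt k) : (dRam κ Φ).IsWeightedHomogeneous wt (k + 2) := by
  rw [dRam_apply]
  refine IsWeightedHomogeneous.add ?_ ?_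
  · by_cases h4 : 4 ≤ k
    · have h1 : (pderiv 0 Φ).IsWeightedHomogeneous wt (k - 4) :=
        hΦ.pderiv (by simp only [wt_zero]; omega)
      have h2 : (-4 * X 1 : MvPolynomial (Fin 2) κ).IsWeightedHomogeneous wt 6 := by
        have := (isWeightedHomogeneous_X κ wt (1 : Fin 2))
        have h3 : (-4 * X 1 : MvPolynomial (Fin 2) κ) = C (-4) * X 1 := by
          rw [map_neg, map_ofNat]
        rw [h3]
        have h4 := (isWeightedHomogeneous_C wt (-4 : κ)).mul this
        simpa using h4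
      have := h2.mul h1
      have e : 6 + (k - 4) = k + 2 := by omega
      rwa [e] at this
    · rw [pderiv_eq_zero_of_weight_lt hΦ 0 (by simp only [wt_zero]; omega), mul_zero]
      exact isWeightedHomogeneous_zero _ _ _
  · by_cases h6 : 6 ≤ k
    · have h1 : (pderiv 1 Φ).IsWeightedHomogeneous wt (k - 6) :=
        hΦ.pderiv (by simp only [wt_one]; omega)
      have h2 : (-6 * X 0 ^ 2 : MvPolynomial (Fin 2) κ).IsWeightedHomogeneous wt 8 := by
        have := (isWeightedHomogeneous_X κ wt (0 : Fin 2)).pow 2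
        have h3 : (-6 * X 0 ^ 2 : MvPolynomial (Fin 2) κ) = C (-6) * X 0 ^ 2 := by
          rw [map_neg, map_ofNat]
        rw [h3]
        have h4 := (isWeightedHomogeneous_C wt (-6 : κ)).mul this
        simpa using h4
      have := h2.mul h1
      have e : 8 + (k - 6) = k + 2 := by omega
      rwa [e] at this
    · rw [pderiv_eq_zero_of_weight_lt hΦ 1 (by simp only [wt_one]; omega), mul_zero]
      exact isWeightedHomogeneous_zero _ _ _

/-- Chain rule for a derivation of `κ⟦X⟧` applied to `Φ(Q,R)`. -/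
theorem deriv_aeval (D : Derivation κ κ⟦X⟧ κ⟦X⟧) (Q R : κ⟦X⟧) (Φ : MvPolynomial (Fin 2) κ) :
    D (aeval ![Q, R] Φ) =
      aeval ![Q, R] (pderiv 0 Φ) * D Q + aeval ![Q, R] (pderiv 1 Φ) * D R := by
  induction Φ using MvPolynomial.induction_on with
  | C a =>
    rw [aeval_C, Derivation.map_algebraMap, pderiv_C, pderiv_C]
    simp
  | add p q hp hq => simp only [map_add, hp, hq]; ring
  | mul_X p i hp =>
    rw [map_mul, Derivation.leibniz, hp]
    simp only [smul_eq_mul, Derivation.leibniz, map_add, map_mul, aeval_X]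
    fin_cases i
    · simp
      ring
    · simp
      ring

theorem theta_aeval (Q R : κ⟦X⟧) (Φ : MvPolynomial (Fin 2) κ) :
    theta κ (aeval ![Q, R] Φ) =
      aeval ![Q, R] (pderiv 0 Φ) * theta κ Q + aeval ![Q, R] (pderiv 1 Φ) * theta κ R := by
  simp only [theta, deriv_aeval]
  ring

/-- **Chain rule** for isobaric polynomials in solutions of Ramanujan's equations. -/
theorem chain_rule (P Q R : κ⟦X⟧) (hQ : 3 * theta κ Q = P * Q - R)
    (hR : 2 * theta κ R = P * R - Q ^ 2) {k : ℕ} {Φ : MvPolynomial (Fin 2) κ}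
    (hΦ : Φ.IsWeightedHomogeneous wt k) :
    12 * theta κ (aeval ![Q, R] Φ) =
      aeval ![Q, R] (dRam κ Φ) + (k : κ⟦X⟧) * P * aeval ![Q, R] Φ := by
  have hE := hΦ.sum_weight_X_mul_pderiv
  rw [Fin.sum_univ_two] at hE
  simp only [wt_zero, wt_one, nsmul_eq_mul] at hE
  have hE' := congrArg (aeval ![Q, R]) hE
  simp only [map_add, map_mul, map_natCast, aeval_X, Matrix.cons_val_zero, Matrix.cons_val_one]
    at hE'
  rw [theta_aeval, dRam_apply]
  simp only [map_add, map_mul, map_neg, map_pow, aeval_X, Matrix.cons_val_zero,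
    Matrix.cons_val_one, map_ofNat]
  push_cast at hE'
  linear_combination (aeval ![Q, R] (pderiv 0 Φ)) * 4 * hQ +
    (aeval ![Q, R] (pderiv 1 Φ)) * 6 * hR + P * hE'

end Fermat.Agent.S16.WT
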