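/-
S16 (level-one weight theorem mod ℓ), algebra slice: divisors of weighted homogeneous polynomials
over a domain are weighted homogeneous.  Tool: the grading homomorphism
`X_i ↦ X_i T^{w i} : R[X_i] → R[X_i][T]`.
-/
import Mathlib

set_option autoImplicit false

noncomputable section

namespace Fermat.Agent.S16.WT.WeightedFactor

open MvPolynomial

variable {σ : Type*} {R : Type*} [CommRing R] (w : σ → ℕ)

/-- The grading homomorphism `X_i ↦ X_i T^{w i}`. -/
def grad : MvPolynomial σ R →ₐ[R] Polynomial (MvPolynomial σ R) :=
  MvPolynomial.aeval (fun i => Polynomial.C (MvPolynomial.X i) * Polynomial.X ^ (w i))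

theorem grad_X (i : σ) :
    grad w (X i : MvPolynomial σ R) = Polynomial.C (X i) * Polynomial.X ^ (w i) := by
  simp [grad]

theorem grad_monomial (d : σ →₀ ℕ) (r : R) :
    grad w (monomial d r) = Polynomial.C (monomial d r) * Polynomial.X ^ (Finsupp.weight w d) := by
  rw [grad, aeval_monomial, monomial_eq, map_mul, Finsupp.weight_apply]
  simp only [Finsupp.prod, Finsupp.sum, map_prod, map_pow, smul_eq_mul, mul_pow,
    Finset.prod_mul_distrib, ← pow_mul, Finset.prod_pow_eq_pow_sum]
  have : (algebraMap R (Polynomial (MvPolynomial σ R))) r = Polynomial.C (C r) := rfl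
  rw [this, mul_assoc]
  congr 3
  refine Finset.sum_congr rfl fun i _ => ?_
  ring

/-- The specialisation `T = 1` undoes `grad`. -/
theorem eval_one_grad (φ : MvPolynomial σ R) : (grad w φ).eval 1 = φ := by
  induction φ using MvPolynomial.induction_on' with
  | monomial d r => rw [grad_monomial]; simp
  | add p q hp hq => rw [map_add, Polynomial.eval_add, hp, hq]

theorem grad_ne_zero {φ : MvPolynomial σ R} (h : φ ≠ 0) : grad w φ ≠ 0 := by
  intro h0
  apply h
  rw [← eval_one_grad w φ, h0, Polynomial.eval_zero]

/-- On a weighted homogeneous polynomial of weight `k`, `grad` is multiplication by `T^k`. -/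
theorem grad_of_isWeightedHomogeneous {φ : MvPolynomial σ R} {k : ℕ}
    (h : IsWeightedHomogeneous w φ k) : grad w φ = Polynomial.C φ * Polynomial.X ^ k := by
  induction h using IsWeightedHomogeneous.induction_on with
  | zero => simp
  | add p q hp hq ihp ihq => rw [map_add, ihp, ihq, map_add, add_mul]
  | monomial d r hr => rw [grad_monomial, hr]

/-- The coefficients of `grad φ` are the weighted homogeneous components. -/
theorem coeff_grad (φ : MvPolynomial σ R) (n : ℕ) :
    (grad w φ).coeff n = weightedHomogeneousComponent w n φ := by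
  classical
  induction φ using MvPolynomial.induction_on' with
  | monomial d r =>
    rw [grad_monomial, Polynomial.coeff_C_mul, Polynomial.coeff_X_pow]
    by_cases h : n = Finsupp.weight w d
    · rw [if_pos h, mul_one, weightedHomogeneousComponent_eq_self]
      rw [h]
      exact isWeightedHomogeneous_monomial w d r rfl
    · rw [if_neg h, mul_zero]
      symm
      exact (isWeightedHomogeneous_monomial w d r rfl).weightedHomogeneousComponent_ne n
        (fun h' => h h')
  | add p q hp hq => rw [map_add, Polynomial.coeff_add, hp, hq, map_add]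

/-- Converse of `grad_of_isWeightedHomogeneous`. -/
theorem isWeightedHomogeneous_of_grad {φ ψ : MvPolynomial σ R} {k : ℕ}
    (h : grad w φ = Polynomial.C ψ * Polynomial.X ^ k) : IsWeightedHomogeneous w φ k := by
  classical
  have hφ : φ = ψ := by
    have := congrArg (Polynomial.eval 1) h
    simpa [eval_one_grad] using this
  subst hφ
  have h2 : weightedHomogeneousComponent w k φ = φ := by
    rw [← coeff_grad, h]
    simp
  rw [← h2]
  exact weightedHomogeneousComponent_isWeightedHomogeneous k φ

/-- A polynomial whose degree and trailing degree agree is a monomial. -/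
theorem eq_C_mul_X_pow_of_natTrailingDegree_eq {S : Type*} [CommRing S] (p : Polynomial S)
    (h : p.natTrailingDegree = p.natDegree) :
    p = Polynomial.C (p.coeff p.natDegree) * Polynomial.X ^ p.natDegree := by
  ext i
  rw [Polynomial.coeff_C_mul, Polynomial.coeff_X_pow]
  by_cases hi : i = p.natDegree
  · rw [if_pos hi, mul_one, hi]
  · rw [if_neg hi, mul_zero]
    rcases lt_or_gt_of_ne hi with h1 | h1
    · exact Polynomial.coeff_eq_zero_of_lt_natTrailingDegree (h ▸ h1)
    · exact Polynomial.coeff_eq_zero_of_natDegree_lt h1

/-- **Divisors of weighted homogeneous polynomials over a domain are weighted homogeneous.** -/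
theorem isWeightedHomogeneous_of_mul [IsDomain R] {φ a b : MvPolynomial σ R} {k : ℕ}
    (hφ : IsWeightedHomogeneous w φ k) (h0 : φ ≠ 0) (hab : φ = a * b) :
    ∃ m n : ℕ, m + n = k ∧ IsWeightedHomogeneous w a m ∧ IsWeightedHomogeneous w b n := by
  have ha : a ≠ 0 := by rintro rfl; exact h0 (by rw [hab, zero_mul])
  have hb : b ≠ 0 := by rintro rfl; exact h0 (by rw [hab, mul_zero])
  have hga := grad_ne_zero w ha
  have hgb := grad_ne_zero w hb
  have key : grad w a * grad w b = Polynomial.C φ * Polynomial.X ^ k := by
    rw [← map_mul, ← hab, grad_of_isWeightedHomogeneous w hφ]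
  have hCφ : (Polynomial.C φ : Polynomial (MvPolynomial σ R)) ≠ 0 := by
    rwa [Ne, Polynomial.C_eq_zero]
  have hdeg : (grad w a).natDegree + (grad w b).natDegree = k := by
    rw [← Polynomial.natDegree_mul hga hgb, key, Polynomial.natDegree_C_mul_X_pow k φ h0]
  have htr : (grad w a).natTrailingDegree + (grad w b).natTrailingDegree = k := by
    rw [← Polynomial.natTrailingDegree_mul hga hgb, key,
      Polynomial.natTrailingDegree_mul hCφ (pow_ne_zero _ Polynomial.X_ne_zero),
      Polynomial.natTrailingDegree_C, Polynomial.natTrailingDegree_X_pow, zero_add]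
  have h1 := Polynomial.natTrailingDegree_le_natDegree (p := grad w a)
  have h2 := Polynomial.natTrailingDegree_le_natDegree (p := grad w b)
  have e1 : (grad w a).natTrailingDegree = (grad w a).natDegree := by omega
  have e2 : (grad w b).natTrailingDegree = (grad w b).natDegree := by omega
  refine ⟨(grad w a).natDegree, (grad w b).natDegree, hdeg, ?_, ?_⟩
  · exact isWeightedHomogeneous_of_grad w (eq_C_mul_X_pow_of_natTrailingDegree_eq _ e1)
  · exact isWeightedHomogeneous_of_grad w (eq_C_mul_X_pow_of_natTrailingDegree_eq _ e2)

end Fermat.Agent.S16.WT.WeightedFactor
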