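import Mathlib
import Fermat.Agent.S16.WT.Defs
import Fermat.Agent.S16.WT.Deriv
import Fermat.Agent.S16.WT.WeightedFactor

/-!
# S16 / weight theorem: the algebraic core

`κ` a field of characteristic `l ≥ 5`, `P Q R : κ⟦X⟧` solutions of Ramanujan's equations with
constant terms `1`, evaluation `Φ ↦ Φ(Q,R)` injective on isobaric polynomials of a fixed weight,
`A` isobaric of weight `l - 1` with `A(Q,R) = 1`.  Then `A` is squarefree, and an isobaric `Φ`
of weight `k` with `Φ(Q,R)` a nonzero constant has `(l - 1) ∣ k`.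
-/

set_option autoImplicit false

namespace Fermat.Agent.S16.WT

open MvPolynomial
open scoped PowerSeries

section basics

variable {κ : Type*} [Field κ]

theorem weight_wt (m : Fin 2 →₀ ℕ) : Finsupp.weight wt m = 4 * m 0 + 6 * m 1 := by
  rw [Finsupp.weight_eq_sum, Fin.sum_univ_two]
  simp [wt, mul_comm]

/-- An isobaric polynomial of weight `0` is constant. -/
theorem eq_C_of_weight_zero {Φ : MvPolynomial (Fin 2) κ} (h : Φ.IsWeightedHomogeneous wt 0) :
    Φ = C (coeff 0 Φ) := by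
  ext m
  rw [coeff_C]
  by_cases hm : 0 = m
  · rw [if_pos hm, hm]
  · rw [if_neg hm]
    apply h.coeff_eq_zero
    rw [weight_wt]
    intro h0
    apply hm
    ext i
    fin_cases i
    · simp only [Fin.zero_eta, Fin.isValue, Finsupp.coe_zero, Pi.zero_apply]; omega
    · simp only [Fin.mk_one, Fin.isValue, Finsupp.coe_zero, Pi.zero_apply]; omega

/-- There is no nonzero isobaric polynomial of weight `2`. -/
theorem eq_zero_of_weight_two {Φ : MvPolynomial (Fin 2) κ} (h : Φ.IsWeightedHomogeneous wt 2) :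
    Φ = 0 :=
  h.eq_zero_of_no_monomials fun d => by rw [weight_wt]; omega

/-- A non-unit isobaric polynomial has positive weight. -/
theorem weight_pos_of_not_isUnit {Φ : MvPolynomial (Fin 2) κ} {w : ℕ}
    (h : Φ.IsWeightedHomogeneous wt w) (h0 : Φ ≠ 0) (hu : ¬ IsUnit Φ) : 0 < w := by
  rcases Nat.eq_zero_or_pos w with rfl | hw
  · exfalso
    apply hu
    have hC := eq_C_of_weight_zero h
    rw [hC]
    have : coeff 0 Φ ≠ 0 := by
      intro h1
      apply h0
      rw [hC, h1, map_zero]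
    exact (isUnit_iff_ne_zero.2 this).map C
  · exact hw

end basics

section core

variable {κ : Type*} [Field κ] (l : ℕ) [hl : Fact l.Prime] [CharP κ l]
variable (P Q R : κ⟦X⟧)

/-- The hypotheses of the algebraic core, bundled. -/
structure CoreHyp (A : MvPolynomial (Fin 2) κ) : Prop where
  h5 : 5 ≤ l
  hP0 : PowerSeries.constantCoeff P = 1
  hQ : 3 * theta κ Q = P * Q - R
  hR : 2 * theta κ R = P * R - Q ^ 2
  hP : 12 * theta κ P = P ^ 2 - Q
  hinj : ∀ (k : ℕ) (Φ : MvPolynomial (Fin 2) κ), Φ.IsWeightedHomogeneous wt k →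
    aeval ![Q, R] Φ = 0 → Φ = 0
  hA : A.IsWeightedHomogeneous wt (l - 1)
  hA1 : aeval ![Q, R] A = 1

variable {l P Q R}
variable {A : MvPolynomial (Fin 2) κ}

theorem CoreHyp.A_ne_zero (H : CoreHyp l P Q R A) : A ≠ 0 := by
  intro h
  have := H.hA1
  rw [h, map_zero] at this
  exact zero_ne_one this

theorem CoreHyp.cast_l_sub_one (H : CoreHyp l P Q R A) : ((l - 1 : ℕ) : κ⟦X⟧) = -1 := by
  have h1 : 1 ≤ l := hl.out.one_le
  have : ((l - 1 : ℕ) : κ) = -1 := by
    rw [Nat.cast_sub h1, CharP.cast_eq_zero, Nat.cast_one, zero_sub]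
  rw [← map_natCast (PowerSeries.C (R := κ)), this, map_neg, map_one]

theorem CoreHyp.cast_l_add_one (H : CoreHyp l P Q R A) : ((l + 1 : ℕ) : κ⟦X⟧) = 1 := by
  have : ((l + 1 : ℕ) : κ) = 1 := by
    rw [Nat.cast_add, CharP.cast_eq_zero, Nat.cast_one, zero_add]
  rw [← map_natCast (PowerSeries.C (R := κ)), this, map_one]

/-- `B := dA` evaluates to `P`. -/
theorem CoreHyp.aeval_dA (H : CoreHyp l P Q R A) : aeval ![Q, R] (dRam κ A) = P := by
  have h := chain_rule P Q R H.hQ H.hR H.hA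
  rw [H.hA1, theta_one, mul_zero, H.cast_l_sub_one] at h
  linear_combination -h

/-- `d(dA) = -X₀ A`. -/
theorem CoreHyp.dRam_dA (H : CoreHyp l P Q R A) : dRam κ (dRam κ A) = -(X 0 * A) := by
  have h5 := H.h5
  have hB : (dRam κ A).IsWeightedHomogeneous wt (l + 1) := by
    have := isWeightedHomogeneous_dRam H.hA
    have e : l - 1 + 2 = l + 1 := by omega
    rwa [e] at this
  have hdB : (dRam κ (dRam κ A)).IsWeightedHomogeneous wt (l + 3) := by
    have := isWeightedHomogeneous_dRam hB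
    have e : l + 1 + 2 = l + 3 := by omega
    rwa [e] at this
  have hXA : (X 0 * A).IsWeightedHomogeneous wt (l + 3) := by
    have := (isWeightedHomogeneous_X κ wt (0 : Fin 2)).mul H.hA
    have e : wt 0 + (l - 1) = l + 3 := by simp only [wt_zero]; omega
    rwa [e] at this
  have h := chain_rule P Q R H.hQ H.hR hB
  rw [H.aeval_dA, H.cast_l_add_one, H.hP] at h
  have hsum : dRam κ (dRam κ A) + X 0 * A = 0 := by
    apply H.hinj (l + 3) _ (hdB.add hXA)
    rw [map_add, map_mul, aeval_X, H.hA1]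
    simp only [Matrix.cons_val_zero]
    linear_combination -h
  linear_combination hsum

/-- A natural number `0 < n < l` is nonzero in `κ`. -/
theorem natCast_ne_zero_of_lt (κ : Type*) [Field κ] (l : ℕ) [CharP κ l] {n : ℕ} (h0 : 0 < n)
    (hn : n < l) : (n : κ) ≠ 0 := by
  intro h
  have := (CharP.cast_eq_zero_iff κ l n).1 h
  exact absurd (Nat.le_of_dvd h0 this) (by omega)

/-- **`A` is squarefree.** -/
theorem CoreHyp.not_sq_dvd (H : CoreHyp l P Q R A) {π : MvPolynomial (Fin 2) κ}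
    (hπ : Irreducible π) : ¬ π ^ 2 ∣ A := by
  intro hdvd
  have h5 := H.h5
  have hA0 := H.A_ne_zero
  have hπ0 : π ≠ 0 := hπ.ne_zero
  have hπp : Prime π := hπ.prime
  obtain ⟨e, A', hA', hAe⟩ := WfDvdMonoid.max_power_factor hA0 hπ
  have he2 : 2 ≤ e := by
    by_contra hlt
    have : e = 0 ∨ e = 1 := by omega
    rcases this with rfl | rfl
    · rw [pow_zero, one_mul] at hAe
      exact hA' ((dvd_pow_self π two_ne_zero).trans (hAe ▸ hdvd))
    · rw [pow_one] at hAe
      rw [hAe, pow_two] at hdvd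
      exact hA' ((mul_dvd_mul_iff_left hπ0).1 hdvd)
  obtain ⟨e', rfl⟩ : ∃ e', e = e' + 2 := ⟨e - 2, by omega⟩
  -- weights
  obtain ⟨m, n, hmn, hm, hn⟩ := WeightedFactor.isWeightedHomogeneous_of_mul wt H.hA hA0 hAe
  have hpe0 : π ^ (e' + 2) ≠ 0 := pow_ne_zero _ hπ0
  obtain ⟨w, n', _, hπw, _⟩ := WeightedFactor.isWeightedHomogeneous_of_mul wt hm hpe0
    (pow_succ' π (e' + 1))
  have hmw : m = (e' + 2) * w := by
    have := hπw.pow (e' + 2)
    rw [smul_eq_mul] at this
    exact IsWeightedHomogeneous.inj_right hpe0 hm this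
  have hw0 : 0 < w := weight_pos_of_not_isUnit hπw hπ0 hπ.not_isUnit
  have hew : (e' + 2) * w ≤ l - 1 := by omega
  have hel : e' + 2 < l := by
    have : e' + 2 ≤ (e' + 2) * w := Nat.le_mul_of_pos_right _ hw0
    omega
  have hwl : w < l := by
    have : w ≤ (e' + 2) * w := Nat.le_mul_of_pos_left _ (by omega)
    omega
  -- the derivation computation
  set U : MvPolynomial (Fin 2) κ := ((e' + 2 : ℕ) : MvPolynomial (Fin 2) κ) * (dRam κ π * A') +
    π * dRam κ A' with hU
  have hdA : dRam κ A = π ^ (e' + 1) * U := by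
    rw [hAe, Derivation.leibniz, Derivation.leibniz_pow, hU]
    simp only [smul_eq_mul, nsmul_eq_mul, Nat.add_succ_sub_one]
    push_cast
    ring
  have hddA : dRam κ (dRam κ A) = π ^ e' * (π * dRam κ U +
      ((e' + 1 : ℕ) : MvPolynomial (Fin 2) κ) * (U * dRam κ π)) := by
    rw [hdA, Derivation.leibniz, Derivation.leibniz_pow]
    simp only [smul_eq_mul, nsmul_eq_mul, Nat.add_succ_sub_one, add_zero]
    push_cast
    ring
  have hkey : π * dRam κ U + ((e' + 1 : ℕ) : MvPolynomial (Fin 2) κ) * (U * dRam κ π) =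
      -(X 0 * π ^ 2 * A') := by
    have h1 := H.dRam_dA
    rw [hddA] at h1
    have h2 : π ^ e' * (π * dRam κ U + ((e' + 1 : ℕ) : MvPolynomial (Fin 2) κ) *
        (U * dRam κ π)) = π ^ e' * (-(X 0 * π ^ 2 * A')) := by
      rw [h1]
      conv_lhs => rw [hAe]
      ring
    exact mul_left_cancel₀ (pow_ne_zero _ hπ0) h2
  have hunit : ∀ n : ℕ, 0 < n → n < l → IsUnit ((n : ℕ) : MvPolynomial (Fin 2) κ) := by
    intro n h0 hn
    rw [← map_natCast (C (σ := Fin 2) (R := κ))]
    exact (isUnit_iff_ne_zero.2 (natCast_ne_zero_of_lt κ l h0 hn)).map C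
  have hd1 : π ∣ U * dRam κ π := by
    have h3 : π ∣ ((e' + 1 : ℕ) : MvPolynomial (Fin 2) κ) * (U * dRam κ π) := by
      refine ⟨-(X 0 * π * A') - dRam κ U, ?_⟩
      linear_combination hkey
    exact ((hunit (e' + 1) (by omega) (by omega)).dvd_mul_left).1 h3
  have hd2 : π ∣ dRam κ π := by
    rcases hπp.dvd_or_dvd hd1 with h | h
    · have h4 : π ∣ ((e' + 2 : ℕ) : MvPolynomial (Fin 2) κ) * (dRam κ π * A') := by
        have : π ∣ π * dRam κ A' := dvd_mul_right _ _
        exact (dvd_add_left this).1 h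
      have h5 : π ∣ dRam κ π * A' :=
        ((hunit (e' + 2) (by omega) hel).dvd_mul_left).1 h4
      rcases hπp.dvd_or_dvd h5 with h6 | h6
      · exact h6
      · exact absurd h6 hA'
    · exact h
  have hdπ : dRam κ π = 0 := by
    by_contra hne
    obtain ⟨s, hs⟩ := hd2
    obtain ⟨m', n'', hmn', hm', hn'⟩ := WeightedFactor.isWeightedHomogeneous_of_mul wt
      (isWeightedHomogeneous_dRam hπw) hne hs
    have : m' = w := IsWeightedHomogeneous.inj_right hπ0 hm' hπw
    have hn2 : n'' = 2 := by omega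
    rw [hn2] at hn'
    apply hne
    rw [hs, eq_zero_of_weight_two hn', mul_zero]
  -- evaluate
  set g : κ⟦X⟧ := aeval ![Q, R] π with hg
  have hgu : IsUnit g := by
    have h1 := H.hA1
    rw [hAe, map_mul, map_pow, ← hg, pow_succ', mul_assoc] at h1
    exact IsUnit.of_mul_eq_one _ h1
  have hg0 : PowerSeries.constantCoeff g ≠ 0 := by
    have := (PowerSeries.isUnit_iff_constantCoeff).1 hgu
    exact this.ne_zero
  have hch := chain_rule P Q R H.hQ H.hR hπw
  rw [hdπ, map_zero, zero_add, ← hg] at hch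
  have hc0 := congrArg PowerSeries.constantCoeff hch
  rw [map_mul, map_mul, map_mul, H.hP0, mul_one, ← PowerSeries.coeff_zero_eq_constantCoeff_apply
    (theta κ g), coeff_theta, Nat.cast_zero, zero_mul, mul_zero, map_natCast] at hc0
  have hwk : (w : κ) = 0 := by
    rcases mul_eq_zero.1 hc0.symm with h | h
    · exact h
    · exact absurd h hg0
  exact natCast_ne_zero_of_lt κ l hw0 hwl hwk

/-- **Weight theorem, algebraic form**: an isobaric `Φ` of weight `k` whose value `Φ(Q,R)` is a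
nonzero constant has `(l - 1) ∣ k`. -/
theorem CoreHyp.dvd_weight (H : CoreHyp l P Q R A) {k : ℕ} {Φ : MvPolynomial (Fin 2) κ}
    (hΦ : Φ.IsWeightedHomogeneous wt k) {c : κ} (hc : c ≠ 0)
    (hΦc : aeval ![Q, R] Φ = PowerSeries.C c) : (l - 1) ∣ k := by
  have h5 := H.h5
  have hA0 := H.A_ne_zero
  have hΦ0 : Φ ≠ 0 := by
    rintro rfl
    rw [map_zero] at hΦc
    apply hc
    have := congrArg PowerSeries.constantCoeff hΦc
    simpa using this.symm
  have hpow : Φ ^ (l - 1) = C (c ^ (l - 1)) * A ^ k := by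
    apply sub_eq_zero.1
    have h1 : (Φ ^ (l - 1)).IsWeightedHomogeneous wt ((l - 1) * k) := by
      have := hΦ.pow (l - 1)
      rwa [smul_eq_mul] at this
    have h2 : (C (c ^ (l - 1)) * A ^ k).IsWeightedHomogeneous wt ((l - 1) * k) := by
      have := (H.hA.pow k).C_mul (c ^ (l - 1))
      rwa [smul_eq_mul, Nat.mul_comm] at this
    apply H.hinj _ _ (h1.sub h2)
    have e1 : aeval ![Q, R] (Φ ^ (l - 1)) = PowerSeries.C (c ^ (l - 1)) := by
      rw [map_pow, hΦc, ← map_pow]
    have e2 : aeval ![Q, R] (C (c ^ (l - 1)) * A ^ k) = PowerSeries.C (c ^ (l - 1)) := by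
      rw [map_mul, aeval_C, map_pow (aeval ![Q, R]) A, H.hA1, one_pow, mul_one]
      rfl
    rw [map_sub, e1, e2, sub_self]
  have hAnu : ¬ IsUnit A := by
    intro hu
    obtain ⟨r, -, hC⟩ := MvPolynomial.isUnit_iff_eq_C_of_isReduced.1 hu
    have h0 : A.IsWeightedHomogeneous wt 0 := by
      rw [hC]; exact isWeightedHomogeneous_C wt _
    have := IsWeightedHomogeneous.inj_right hA0 H.hA h0
    omega
  obtain ⟨π, hπ, hπA⟩ := WfDvdMonoid.exists_irreducible_factor hAnu hA0
  have hπp : Prime π := hπ.prime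
  have hmA : emultiplicity π A = 1 := by
    have : emultiplicity π A = ((1 : ℕ) : ℕ∞) :=
      emultiplicity_eq_coe.2 ⟨by simpa using hπA, H.not_sq_dvd hπ⟩
    simpa using this
  have hfin : FiniteMultiplicity π Φ := FiniteMultiplicity.of_prime_left hπp hΦ0
  have h1 : emultiplicity π (Φ ^ (l - 1)) = ((l - 1 : ℕ) : ℕ∞) * (multiplicity π Φ : ℕ∞) := by
    rw [emultiplicity_pow hπp, hfin.emultiplicity_eq_multiplicity]
  have hCu : IsUnit (C (c ^ (l - 1)) : MvPolynomial (Fin 2) κ) :=
    (isUnit_iff_ne_zero.2 (pow_ne_zero _ hc)).map C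
  have h2 : emultiplicity π (C (c ^ (l - 1)) * A ^ k) = (k : ℕ∞) := by
    rw [emultiplicity_mul hπp, emultiplicity_of_isUnit_right hπ.not_isUnit hCu,
      emultiplicity_pow hπp, hmA, zero_add, mul_one]
  rw [hpow, h2] at h1
  have h3 : k = (l - 1) * multiplicity π Φ := by exact_mod_cast h1
  exact ⟨_, h3⟩

end core

end Fermat.Agent.S16.WT
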