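import Mathlib

namespace Fermat.Agent.S16.WT.VonStaudt

open Finset

/-- **von Staudt–Clausen at the index `l - 1`**: `l * B_{l-1} = c / D` with `c ≡ -D (mod l)` and
`l ∤ D`. -/
theorem exists_mul_bernoulli_eq (l : ℕ) (hl : l.Prime) (h3 : 3 ≤ l) :
    ∃ (c : ℤ) (D : ℕ), ¬ (l : ℤ) ∣ c ∧ ¬ l ∣ D ∧ D ≠ 0 ∧
      (l : ℚ) * bernoulli (l - 1) = c / D := by
  obtain ⟨k, hk⟩ : ∃ k, l - 1 = 2 * k := by
    have hodd : Odd l := hl.odd_of_ne_two (by omega)
    obtain ⟨m, hm⟩ := hodd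
    exact ⟨m, by omega⟩
  obtain ⟨N, hN⟩ := Bernoulli.vonStaudt_clausen k
  set S := (range (2 * k + 2)).filter (fun p => p.Prime ∧ (p - 1) ∣ 2 * k) with hS
  have hlS : l ∈ S := by
    simp only [hS, mem_filter, mem_range]
    exact ⟨by omega, hl, by rw [← hk]⟩
  set S' := S.erase l with hS'
  have hprime : ∀ q ∈ S', q.Prime := fun q hq => (mem_filter.mp (mem_of_mem_erase hq)).2.1
  set D : ℕ := ∏ q ∈ S', q with hD
  set E : ℕ := ∑ q ∈ S', ∏ q' ∈ S'.erase q, q' with hE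
  have hD0 : D ≠ 0 := prod_ne_zero_iff.mpr fun q hq => (hprime q hq).ne_zero
  have hlD : ¬ l ∣ D := by
    intro h
    obtain ⟨q, hq, hlq⟩ := (Prime.dvd_finsetProd_iff hl.prime _).mp h
    have : l = q := (Nat.prime_dvd_prime_iff_eq hl (hprime q hq)).mp hlq
    exact (ne_of_mem_erase hq) this.symm
  have hsum : (D : ℚ) * ∑ q ∈ S', (1 : ℚ) / q = E := by
    rw [mul_sum, hE, Nat.cast_sum]
    refine sum_congr rfl fun q hq => ?_
    have hq0 : (q : ℚ) ≠ 0 := by exact_mod_cast (hprime q hq).ne_zero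
    rw [hD, ← mul_prod_erase S' _ hq]
    push_cast
    field_simp
  have hl0 : (l : ℚ) ≠ 0 := by exact_mod_cast hl.ne_zero
  have hsplit : ∑ q ∈ S, (1 : ℚ) / q = 1 / l + ∑ q ∈ S', (1 : ℚ) / q := by
    rw [hS']; exact (add_sum_erase S (fun q : ℕ => (1 : ℚ) / q) hlS).symm
  refine ⟨l * D * N - D - l * E, D, ?_, hlD, hD0, ?_⟩
  · intro h
    have h1 : (l : ℤ) ∣ (l : ℤ) * D * N - l * E := ⟨D * N - E, by ring⟩
    have h2 : (l : ℤ) ∣ (D : ℤ) := by
      have := dvd_sub h1 h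
      have e : (l : ℤ) * D * N - l * E - (l * D * N - D - l * E) = D := by ring
      rwa [e] at this
    exact hlD (by exact_mod_cast h2)
  · have hN' : (N : ℚ) = bernoulli (l - 1) + (1 / l + ∑ q ∈ S', (1 : ℚ) / q) := by
      rw [← hsplit, hk]; exact hN
    have hDq : (D : ℚ) ≠ 0 := by exact_mod_cast hD0
    have hB : bernoulli (l - 1) = N - 1 / l - ∑ q ∈ S', (1 : ℚ) / q := by
      rw [hN']; ring
    rw [eq_div_iff hDq, hB]
    push_cast
    have : (l : ℚ) * (N - 1 / l - ∑ q ∈ S', (1 : ℚ) / q) * D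
        = l * D * N - D - l * (D * ∑ q ∈ S', (1 : ℚ) / q) := by
      field_simp
    rw [this, hsum]

/-- helper7's (WT-c): `2 (l - 1) / B_{l-1} = l * (a / b)` with `l ∤ b`. -/
theorem exists_bernoulli_unit (l : ℕ) (hl : l.Prime) (h5 : 5 ≤ l) :
    ∃ a b : ℤ, ¬ (l : ℤ) ∣ b ∧ 2 * ((l : ℚ) - 1) / bernoulli (l - 1) = l * (a / b) := by
  obtain ⟨c, D, hc, -, hD0, h⟩ := exists_mul_bernoulli_eq l hl (by omega)
  have hl0 : (l : ℚ) ≠ 0 := by exact_mod_cast hl.ne_zero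
  have hc0 : (c : ℚ) ≠ 0 := by
    intro h0
    apply hc
    have : c = 0 := by exact_mod_cast h0
    simp [this]
  have hDq : (D : ℚ) ≠ 0 := by exact_mod_cast hD0
  have hB : bernoulli (l - 1) = c / (l * D) := by
    rw [eq_div_iff (mul_ne_zero hl0 hDq)]
    rw [eq_div_iff hDq] at h
    linear_combination h
  refine ⟨2 * (l - 1) * D, c, hc, ?_⟩
  rw [hB]
  push_cast
  field_simp

end Fermat.Agent.S16.WT.VonStaudt
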