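import Mathlib
import Fermat.Agent.S16.WT.VonStaudt

namespace Fermat.Agent.S16.WT.EisUnit

open ModularForm EisensteinSeries ModularFormClass ArithmeticFunction UpperHalfPlane
open scoped ArithmeticFunction.sigma

/-- An integer prime to `l` is a unit in a ring where the naturals prime to `l` are units. -/
theorem isUnit_intCast_of_not_dvd {R : Type*} [CommRing R] (l : ℕ)
    (hR : ∀ n : ℕ, ¬ l ∣ n → IsUnit (n : R)) (b : ℤ) (hb : ¬ (l : ℤ) ∣ b) : IsUnit (b : R) := by
  have h1 : ¬ l ∣ b.natAbs := fun h => hb (Int.natCast_dvd.mpr h)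
  have h2 := hR _ h1
  rcases Int.natAbs_eq b with h | h
  · rw [h]; simpa using h2
  · rw [h]; simpa using h2.neg

/-- **`E_{l-1} ≡ 1 (mod l)`**, in model form: over any coefficient ring `R → ℂ` in which the
integers prime to `l` are units there is a power series `A` over `R` with image the `q`-expansion
of `E_{l-1}`, all of whose higher coefficients are multiples of `l`. -/
theorem exists_E_model_coeff {R : Type*} [CommRing R] (ι : R →+* ℂ) (l : ℕ) (hl : l.Prime)
    (h5 : 5 ≤ l) (hR : ∀ n : ℕ, ¬ l ∣ n → IsUnit (n : R)) (hk : 3 ≤ l - 1) :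
    ∃ A : PowerSeries R, A.map ι = qExpansion 1 (E hk) ∧ PowerSeries.coeff 0 A = 1 ∧
      ∀ m, m ≠ 0 → ∃ r : R, PowerSeries.coeff m A = (l : R) * r := by
  obtain ⟨a, b, hb, hab⟩ := VonStaudt.exists_bernoulli_unit l hl h5
  obtain ⟨u, hu⟩ := isUnit_intCast_of_not_dvd l hR b hb
  have heven : Even (l - 1) := by
    have hodd : Odd l := hl.odd_of_ne_two (by omega)
    obtain ⟨m, hm⟩ := hodd
    exact ⟨m, by omega⟩
  have hbC : (b : ℂ) ≠ 0 := by
    intro h0
    apply hb
    have : b = 0 := by exact_mod_cast h0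
    simp [this]
  have hιu : ι ((u⁻¹ : Rˣ) : R) = (b : ℂ)⁻¹ := by
    rw [map_units_inv, hu, map_intCast]
  have habC : (2 * ((l - 1 : ℕ) : ℂ) / (bernoulli (l - 1) : ℂ)) = l * (a / b) := by
    have := congrArg (fun x : ℚ => (x : ℂ)) hab
    push_cast at this
    rw [← this, Nat.cast_sub (by omega : 1 ≤ l)]
    simp
  refine ⟨PowerSeries.mk fun m => if m = 0 then 1 else
      (l : R) * (-(a : R) * ((u⁻¹ : Rˣ) : R) * (σ (l - 1 - 1) m : R)), ?_, by simp, ?_⟩
  · ext m
    rw [PowerSeries.coeff_map, PowerSeries.coeff_mk, E_qExpansion_coeff hk heven m]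
    split_ifs with hm
    · simp
    · rw [habC]
      simp only [map_mul, map_neg, map_natCast, map_intCast, hιu]
      field_simp
  · intro m hm
    exact ⟨_, by rw [PowerSeries.coeff_mk, if_neg hm]⟩

/-- **`E_{l-1} ≡ 1 (mod l)`**, reduction form (helper7's `weight_dvd_of_const` conventions). -/
theorem exists_E_model {R : Type*} [CommRing R] (ι : R →+* ℂ) {κ : Type*} [CommRing κ]
    (φ : R →+* κ) (l : ℕ) (hl : l.Prime) [CharP κ l] (h5 : 5 ≤ l)
    (hR : ∀ n : ℕ, ¬ l ∣ n → IsUnit (n : R)) (hk : 3 ≤ l - 1) :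
    ∃ A : PowerSeries R, A.map ι = qExpansion 1 (E hk) ∧ A.map φ = 1 := by
  obtain ⟨A, hA, h0, hm⟩ := exists_E_model_coeff ι l hl h5 hR hk
  refine ⟨A, hA, ?_⟩
  ext m
  rw [PowerSeries.coeff_map, PowerSeries.coeff_one]
  split_ifs with h
  · subst h; rw [h0, map_one]
  · obtain ⟨r, hr⟩ := hm m h
    rw [hr, map_mul, map_natCast, CharP.cast_eq_zero κ l, zero_mul]

/-- helper7's (WT-f), verbatim shape. -/
theorem exists_E_reduction {R : Type*} [CommRing R] (ι : R →+* ℂ) {κ : Type*} [Field κ]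
    (φ : R →+* κ) (l : ℕ) [Fact l.Prime] [CharP κ l] (h5 : 5 ≤ l)
    (hR : ∀ n : ℕ, ¬ l ∣ n → IsUnit (n : R)) (h3 : 3 ≤ l - 1) :
    ∃ e : PowerSeries R, e.map ι = qExpansion 1 (E h3) ∧ e.map φ = 1 :=
  exists_E_model ι φ l Fact.out h5 hR h3

end Fermat.Agent.S16.WT.EisUnit
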