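import Mathlib
import Fermat.Agent.S16.WT.Defs

/-!
# PROJECT E (S16), slice (WT-e1): isobaric polynomials in `E₄`, `E₆`

`κ` a field, `wt = ![4, 6]`.

* `exists_decomp` : every isobaric `Φ ∈ κ[X₀, X₁]` of weight `k` can be written as
  `c X₀^a X₁^b + (X₀³ - X₁²) Ψ` with `Ψ` isobaric of weight `k - 12` (and `Ψ = 0` if `k < 12`);
  the exponents `(a, b) = (expA k, expB k)` depend only on `k` (`exists_decomp'`).
* `aeval_injective_of_isobaric` : if `Q, R ∈ κ⟦X⟧` have constant term `1` and `Q³ - R² ≠ 0`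
  (`coeff 1 ≠ 0`), then evaluation at `(Q, R)` is injective on isobaric polynomials of a fixed
  weight; `eq_of_aeval_eq` : two isobaric polynomials of the same weight with the same value are
  equal.
-/

set_option autoImplicit false

namespace Fermat.Agent.S16.WT.IsoPoly

open MvPolynomial Fermat.Agent.S16.WT

variable {κ : Type*} [Field κ]

/-! ### Weights of monomials -/

theorem weight_wt (d : Fin 2 →₀ ℕ) : Finsupp.weight wt d = 4 * d 0 + 6 * d 1 := by
  rw [Finsupp.weight_apply, Finsupp.sum_fintype _ _ (fun i => by simp), Fin.sum_univ_two]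
  simp [wt, mul_comm]

theorem monomial_eq_two (d : Fin 2 →₀ ℕ) (c : κ) :
    (monomial d c : MvPolynomial (Fin 2) κ) = C c * (X 0 ^ d 0 * X 1 ^ d 1) := by
  rw [monomial_eq, Finsupp.prod_fintype _ _ (fun i => by simp), Fin.prod_univ_two]

theorem isobaric_X_pow_mul (a b : ℕ) :
    (X 0 ^ a * X 1 ^ b : MvPolynomial (Fin 2) κ).IsWeightedHomogeneous wt (4 * a + 6 * b) := by
  have h := ((isWeightedHomogeneous_X (R := κ) wt 0).pow a).mul
    ((isWeightedHomogeneous_X (R := κ) wt 1).pow b)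
  have e : a • wt 0 + b • wt 1 = 4 * a + 6 * b := by
    simp [wt, mul_comm]
  rwa [e] at h

theorem isobaric_delta :
    (X 0 ^ 3 - X 1 ^ 2 : MvPolynomial (Fin 2) κ).IsWeightedHomogeneous wt 12 := by
  have h0 := (isWeightedHomogeneous_X (R := κ) wt 0).pow 3
  have h1 := (isWeightedHomogeneous_X (R := κ) wt 1).pow 2
  have e0 : 3 • wt 0 = 12 := by simp [wt]
  have e1 : 2 • wt 1 = 12 := by simp [wt]
  rw [e0] at h0
  rw [e1] at h1
  exact h0.sub h1

/-! ### The decomposition -/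

/-- The exponent of `X₀` in the normal form of weight `k`. -/
def expA (k : ℕ) : ℕ := if k % 4 = 0 then k / 4 else (k - 6) / 4

/-- The exponent of `X₁` in the normal form of weight `k`. -/
def expB (k : ℕ) : ℕ := if k % 4 = 0 then 0 else 1

/-- `Φ = c X₀^(expA k) X₁^(expB k) + (X₀³ - X₁²) Ψ` with `Ψ` isobaric of weight `k - 12`. -/
def Decomp (k : ℕ) (Φ : MvPolynomial (Fin 2) κ) : Prop :=
  ∃ (c : κ) (Ψ : MvPolynomial (Fin 2) κ), Ψ.IsWeightedHomogeneous wt (k - 12) ∧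
    (Ψ ≠ 0 → 12 ≤ k) ∧
    Φ = C c * X 0 ^ expA k * X 1 ^ expB k + (X 0 ^ 3 - X 1 ^ 2) * Ψ

theorem Decomp.zero (k : ℕ) : Decomp k (0 : MvPolynomial (Fin 2) κ) :=
  ⟨0, 0, isWeightedHomogeneous_zero κ wt _, fun h => absurd rfl h, by simp⟩

theorem Decomp.add {k : ℕ} {Φ₁ Φ₂ : MvPolynomial (Fin 2) κ} (h₁ : Decomp k Φ₁)
    (h₂ : Decomp k Φ₂) : Decomp k (Φ₁ + Φ₂) := by
  obtain ⟨c₁, Ψ₁, hw₁, hk₁, e₁⟩ := h₁
  obtain ⟨c₂, Ψ₂, hw₂, hk₂, e₂⟩ := h₂
  refine ⟨c₁ + c₂, Ψ₁ + Ψ₂, hw₁.add hw₂, fun h => ?_, ?_⟩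
  · by_contra hlt
    have z₁ : Ψ₁ = 0 := by
      by_contra h1
      exact hlt (hk₁ h1)
    have z₂ : Ψ₂ = 0 := by
      by_contra h2
      exact hlt (hk₂ h2)
    exact h (by rw [z₁, z₂, add_zero])
  · rw [e₁, e₂, map_add]
    ring

theorem Decomp.C_mul {k : ℕ} {Φ : MvPolynomial (Fin 2) κ} (h : Decomp k Φ) (r : κ) :
    Decomp k (C r * Φ) := by
  obtain ⟨c, Ψ, hw, hk, e⟩ := h
  refine ⟨r * c, C r * Ψ, hw.C_mul r, fun h0 => hk fun hz => h0 (by rw [hz, mul_zero]), ?_⟩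
  rw [e, map_mul]
  ring

theorem Decomp.sub_delta_mul {k : ℕ} {Φ Θ : MvPolynomial (Fin 2) κ} (h : Decomp k Φ)
    (hΘ : Θ.IsWeightedHomogeneous wt (k - 12)) (hk : 12 ≤ k) :
    Decomp k (Φ - (X 0 ^ 3 - X 1 ^ 2) * Θ) := by
  obtain ⟨c, Ψ, hw, _, e⟩ := h
  refine ⟨c, Ψ - Θ, hw.sub hΘ, fun _ => hk, ?_⟩
  rw [e]
  ring

theorem Decomp.sum {k : ℕ} {ι : Type*} (s : Finset ι) (Φ : ι → MvPolynomial (Fin 2) κ)
    (h : ∀ i ∈ s, Decomp k (Φ i)) : Decomp k (∑ i ∈ s, Φ i) := by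
  classical
  induction s using Finset.induction_on with
  | empty => simpa using Decomp.zero k
  | insert i s his ih =>
    rw [Finset.sum_insert his]
    exact (h i (Finset.mem_insert_self _ _)).add
      (ih fun j hj => h j (Finset.mem_insert_of_mem hj))

/-- Monomials of weight `k` are decomposable. -/
theorem decomp_X_pow_mul (b : ℕ) : ∀ (a k : ℕ), 4 * a + 6 * b = k →
    Decomp k (X 0 ^ a * X 1 ^ b : MvPolynomial (Fin 2) κ) := by
  induction b using Nat.strong_induction_on with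
  | _ b ih =>
    intro a k hk
    rcases b with _ | _ | b
    · -- `b = 0`
      have h4 : k % 4 = 0 := by omega
      have hA : expA k = a := by
        rw [expA, if_pos h4]
        omega
      have hB : expB k = 0 := by rw [expB, if_pos h4]
      refine ⟨1, 0, isWeightedHomogeneous_zero κ wt _, fun h => absurd rfl h, ?_⟩
      rw [hA, hB]
      simp
    · -- `b = 1`
      have h4 : ¬ k % 4 = 0 := by omega
      have hA : expA k = a := by
        rw [expA, if_neg h4]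
        omega
      have hB : expB k = 1 := by rw [expB, if_neg h4]
      refine ⟨1, 0, isWeightedHomogeneous_zero κ wt _, fun h => absurd rfl h, ?_⟩
      rw [hA, hB]
      simp
    · -- `b + 2`
      have h1 := ih b (by omega) (a + 3) k (by omega)
      have hΘ : (X 0 ^ a * X 1 ^ b : MvPolynomial (Fin 2) κ).IsWeightedHomogeneous wt (k - 12) := by
        have := isobaric_X_pow_mul (κ := κ) a b
        have e : 4 * a + 6 * b = k - 12 := by omega
        rwa [e] at this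
      have h2 := h1.sub_delta_mul hΘ (by omega)
      have e : (X 0 ^ (a + 3) * X 1 ^ b - (X 0 ^ 3 - X 1 ^ 2) * (X 0 ^ a * X 1 ^ b) :
          MvPolynomial (Fin 2) κ) = X 0 ^ a * X 1 ^ (b + 1 + 1) := by
        ring
      rwa [e] at h2

/-- Every isobaric polynomial of weight `k` is decomposable. -/
theorem decomp_of_isobaric {k : ℕ} {Φ : MvPolynomial (Fin 2) κ}
    (hΦ : Φ.IsWeightedHomogeneous wt k) : Decomp k Φ := by
  rw [Φ.as_sum]
  refine Decomp.sum _ _ fun d hd => ?_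
  rw [monomial_eq_two]
  refine (decomp_X_pow_mul (d 1) (d 0) k ?_).C_mul _
  have := hΦ (mem_support_iff.mp hd)
  rw [weight_wt] at this
  exact this

/-- **Decomposition of isobaric polynomials**, with the canonical exponents. -/
theorem exists_decomp' {k : ℕ} {Φ : MvPolynomial (Fin 2) κ}
    (hΦ : Φ.IsWeightedHomogeneous wt k) :
    ∃ (c : κ) (Ψ : MvPolynomial (Fin 2) κ), Ψ.IsWeightedHomogeneous wt (k - 12) ∧
      (Ψ ≠ 0 → 12 ≤ k) ∧
      Φ = C c * X 0 ^ expA k * X 1 ^ expB k + (X 0 ^ 3 - X 1 ^ 2) * Ψ :=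
  decomp_of_isobaric hΦ

/-- **Decomposition of isobaric polynomials.** -/
theorem exists_decomp {k : ℕ} {Φ : MvPolynomial (Fin 2) κ}
    (hΦ : Φ.IsWeightedHomogeneous wt k) :
    ∃ (a b : ℕ) (c : κ) (Ψ : MvPolynomial (Fin 2) κ), Ψ.IsWeightedHomogeneous wt (k - 12) ∧
      (Ψ ≠ 0 → 12 ≤ k) ∧ Φ = C c * X 0 ^ a * X 1 ^ b + (X 0 ^ 3 - X 1 ^ 2) * Ψ := by
  obtain ⟨c, Ψ, h1, h2, h3⟩ := decomp_of_isobaric hΦ
  exact ⟨expA k, expB k, c, Ψ, h1, h2, h3⟩

/-! ### Injectivity of the evaluation at `(Q, R)` in a fixed weight -/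

section Eval

variable (Q R : PowerSeries κ)

theorem aeval_decomp (a b : ℕ) (c : κ) (Ψ : MvPolynomial (Fin 2) κ) :
    aeval ![Q, R] (C c * X 0 ^ a * X 1 ^ b + (X 0 ^ 3 - X 1 ^ 2) * Ψ) =
      PowerSeries.C c * Q ^ a * R ^ b + (Q ^ 3 - R ^ 2) * aeval ![Q, R] Ψ := by
  simp only [map_add, map_mul, map_sub, map_pow, aeval_X, Matrix.cons_val_zero,
    Matrix.cons_val_one, aeval_C]
  rfl

/-- **Injectivity of the evaluation on isobaric polynomials of a fixed weight.** -/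
theorem aeval_injective_of_isobaric (hQ : PowerSeries.constantCoeff Q = 1)
    (hR : PowerSeries.constantCoeff R = 1) (hΔ : PowerSeries.coeff 1 (Q ^ 3 - R ^ 2) ≠ 0) :
    ∀ {k : ℕ} {Φ : MvPolynomial (Fin 2) κ}, Φ.IsWeightedHomogeneous wt k →
      aeval ![Q, R] Φ = 0 → Φ = 0 := by
  have hne : Q ^ 3 - R ^ 2 ≠ 0 := fun h => hΔ (by rw [h]; simp)
  have hc0 : PowerSeries.constantCoeff (Q ^ 3 - R ^ 2) = 0 := by
    rw [map_sub, map_pow, map_pow, hQ, hR]
    norm_num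
  intro k
  induction k using Nat.strong_induction_on with
  | _ k ih =>
    intro Φ hΦ h0
    obtain ⟨c, Ψ, hΨ, hk, e⟩ := decomp_of_isobaric hΦ
    rw [e, aeval_decomp] at h0
    have hc : c = 0 := by
      have := congrArg PowerSeries.constantCoeff h0
      simpa [hQ, hR, hc0] using this
    rw [hc, map_zero, zero_mul, zero_mul, zero_add] at h0
    have hΨ0 : aeval ![Q, R] Ψ = 0 := (mul_eq_zero.mp h0).resolve_left hne
    have hΨz : Ψ = 0 := by
      by_contra hne'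
      have h12 := hk hne'
      exact hne' (ih (k - 12) (by omega) hΨ hΨ0)
    rw [e, hc, hΨz]
    simp

/-- Two isobaric polynomials of the same weight with the same value at `(Q, R)` are equal. -/
theorem eq_of_aeval_eq (hQ : PowerSeries.constantCoeff Q = 1)
    (hR : PowerSeries.constantCoeff R = 1) (hΔ : PowerSeries.coeff 1 (Q ^ 3 - R ^ 2) ≠ 0)
    {k : ℕ} {Φ₁ Φ₂ : MvPolynomial (Fin 2) κ} (h₁ : Φ₁.IsWeightedHomogeneous wt k)
    (h₂ : Φ₂.IsWeightedHomogeneous wt k) (h : aeval ![Q, R] Φ₁ = aeval ![Q, R] Φ₂) :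
    Φ₁ = Φ₂ := by
  have := aeval_injective_of_isobaric Q R hQ hR hΔ (h₁.sub h₂) (by rw [map_sub, h, sub_self])
  exact sub_eq_zero.mp this

end Eval

end Fermat.Agent.S16.WT.IsoPoly
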