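import Mathlib
import Fermat.Agent.S16.WT.Algebra
import Fermat.Agent.S16.WT.IsoPoly
import Fermat.Agent.S16.WT.QExpD
import Fermat.Agent.S16.WT.Structure
import Fermat.Agent.S16.WT.EisUnit

/-!
# S16: the weight theorem for constants at level one

`weight_dvd_of_const`: let `l ≥ 5` be a prime, `R` a coefficient ring inside `ℂ` in which the
integers prime to `l` are units, `φ : R → κ` a homomorphism to a field of characteristic `l`.
If a level-one modular form `F` of weight `k` has `q`-expansion with coefficients in `R` which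
reduces under `φ` to a nonzero constant, then `(l - 1) ∣ k`.
-/

set_option autoImplicit false

namespace Fermat.Agent.S16.WT

open UpperHalfPlane ModularForm ModularFormClass MatrixGroups EisensteinSeries MvPolynomial
open scoped PowerSeries

section transfer

variable {R κ : Type*} [CommRing R] [CommRing κ] (φ : R →+* κ)

theorem isWeightedHomogeneous_map {k : ℕ} {Φ : MvPolynomial (Fin 2) R}
    (h : Φ.IsWeightedHomogeneous wt k) : (MvPolynomial.map φ Φ).IsWeightedHomogeneous wt k := by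
  intro d hd
  rw [coeff_map] at hd
  apply h
  intro h0
  exact hd (by rw [h0, map_zero])

theorem aeval_map_QR (Φ : MvPolynomial (Fin 2) R) :
    aeval ![QR κ, RR κ] (MvPolynomial.map φ Φ) =
      (aeval ![QR R, RR R] Φ).map φ := by
  induction Φ using MvPolynomial.induction_on with
  | C a =>
    rw [map_C, aeval_C, aeval_C]
    ext n
    simp [PowerSeries.coeff_C]
  | add p q hp hq => rw [map_add, map_add, hp, hq, map_add, map_add]
  | mul_X p i hp =>
    rw [map_mul, map_mul, hp, map_mul, map_X, aeval_X, aeval_X, map_mul]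
    congr 1
    fin_cases i
    · exact (map_QR φ).symm
    · exact (map_RR φ).symm

end transfer

/-- The coefficient of `q` in `Q³ - R²` is `1728`. -/
theorem coeff_one_disc (κ : Type*) [CommRing κ] :
    PowerSeries.coeff 1 (QR κ ^ 3 - RR κ ^ 2) = 1728 := by
  have hz : PowerSeries.coeff 1 (Qz ^ 3 - Rz ^ 2) = 1728 := by
    have h1 : PowerSeries.coeff 1 Qz = 240 := by rw [coeff_Qz]; simp
    have h2 : PowerSeries.coeff 1 Rz = -504 := by rw [coeff_Rz]; simp
    have h3 : PowerSeries.coeff 0 Qz = 1 := by rw [coeff_Qz]; simp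
    have h4 : PowerSeries.coeff 0 Rz = 1 := by rw [coeff_Rz]; simp
    have e1 : PowerSeries.coeff 1 (Qz * Qz) = 480 := by
      norm_num [PowerSeries.coeff_mul, Finset.Nat.antidiagonal_succ, h1, h3,
        -PowerSeries.coeff_zero_eq_constantCoeff]
    have e0 : PowerSeries.coeff 0 (Qz * Qz) = 1 := by
      norm_num [PowerSeries.coeff_mul, h3, -PowerSeries.coeff_zero_eq_constantCoeff]
    have e2 : PowerSeries.coeff 1 (Qz * Qz * Qz) = 720 := by
      rw [PowerSeries.coeff_mul]
      norm_num [Finset.Nat.antidiagonal_succ, h1, h3, e0, e1,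
        -PowerSeries.coeff_zero_eq_constantCoeff]
    have e3 : PowerSeries.coeff 1 (Rz * Rz) = -1008 := by
      norm_num [PowerSeries.coeff_mul, Finset.Nat.antidiagonal_succ, h2, h4,
        -PowerSeries.coeff_zero_eq_constantCoeff]
    rw [show Qz ^ 3 = Qz * Qz * Qz by ring, show Rz ^ 2 = Rz * Rz by ring, map_sub, e2, e3]
    norm_num
  have : QR κ ^ 3 - RR κ ^ 2 = (Qz ^ 3 - Rz ^ 2).map (Int.castRingHom κ) := by
    simp [QR, RR]
  rw [this, PowerSeries.coeff_map, hz]
  simp

/-- **Weight theorem for constants at level one.** -/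
theorem weight_dvd_of_const {R : Type*} [CommRing R] (ι : R →+* ℂ) (hι : Function.Injective ι)
    {κ : Type*} [Field κ] (φ : R →+* κ) (l : ℕ) [hl : Fact l.Prime] [CharP κ l] (h5 : 5 ≤ l)
    (hR : ∀ n : ℕ, ¬ l ∣ n → IsUnit (n : R)) {k : ℤ} (F : ModularForm 𝒮ℒ k) (f : R⟦X⟧)
    (hf : f.map ι = qExpansion 1 F) (c : κ) (hc : c ≠ 0) (hfc : f.map φ = PowerSeries.C c) :
    ((l : ℤ) - 1) ∣ k := by
  have hlp := hl.out
  -- `6` and `1728` are prime to `l`
  have hl6 : ¬ l ∣ 6 := by
    intro h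
    have h1 := Nat.le_of_dvd (by norm_num) h
    interval_cases l
    · omega
    · exact absurd hlp (by decide)
  have h6 : IsUnit (6 : R) := by
    have := hR 6 hl6
    exact_mod_cast this
  -- `F ≠ 0`, hence `0 ≤ k`
  have hF : F ≠ 0 := by
    rintro rfl
    have hf0 : f = 0 := Structure.eq_zero_of_form_eq_zero ι hι rfl hf
    rw [hf0, map_zero] at hfc
    apply hc
    have := congrArg PowerSeries.constantCoeff hfc
    simpa using this.symm
  have hk0 : 0 ≤ k := by
    by_contra hneg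
    push Not at hneg
    exact hF (rank_zero_iff_forall_zero.mp (levelOne_neg_weight_rank_zero hneg) F)
  -- structure theorem for `F` and `E_{l-1}`
  obtain ⟨Φ, hΦ, hΦe⟩ := Structure.exists_isobaric_QR ι hι h6 F f hf
  have h3 : 3 ≤ l - 1 := by omega
  obtain ⟨e, he, heφ⟩ := EisUnit.exists_E_reduction ι φ l h5 hR h3
  obtain ⟨A, hA, hAe⟩ := Structure.exists_isobaric_QR ι hι h6 (E h3) e he
  rw [Int.toNat_natCast] at hA
  -- the hypotheses of the algebraic core over `κ`
  have h1728 : (1728 : κ) ≠ 0 := by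
    have h1 : ((1728 : ℕ) : κ) ≠ 0 := by
      intro h
      have hd := (CharP.cast_eq_zero_iff κ l 1728).1 h
      have h2 : l ∣ 6 ^ 6 := hd.trans (by norm_num)
      exact hl6 (hlp.dvd_of_dvd_pow h2)
    exact_mod_cast h1
  have hΔ : PowerSeries.coeff 1 (QR κ ^ 3 - RR κ ^ 2) ≠ 0 := by
    rw [coeff_one_disc]; exact h1728
  have H : CoreHyp l (PR κ) (QR κ) (RR κ) (MvPolynomial.map φ A) :=
    { h5 := h5
      hP0 := constantCoeff_PR
      hQ := QExpD.ramanujan_QR κ
      hR := QExpD.ramanujan_RR κ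
      hP := QExpD.ramanujan_PR κ
      hinj := fun _ _ h h0 =>
        IsoPoly.aeval_injective_of_isobaric (QR κ) (RR κ) constantCoeff_QR constantCoeff_RR hΔ h h0
      hA := isWeightedHomogeneous_map φ hA
      hA1 := by rw [aeval_map_QR, hAe, heφ] }
  have hdvd : (l - 1) ∣ k.toNat :=
    H.dvd_weight (isWeightedHomogeneous_map φ hΦ) hc (by rw [aeval_map_QR, hΦe, hfc])
  have hk : k = ((k.toNat : ℕ) : ℤ) := (Int.toNat_of_nonneg hk0).symm
  have hl1 : ((l : ℤ) - 1) = ((l - 1 : ℕ) : ℤ) := by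
    rw [Nat.cast_sub hlp.one_le, Nat.cast_one]
  rw [hk, hl1]
  exact Int.natCast_dvd_natCast.2 hdvd

/-- The same for a subring of `ℂ`. -/
theorem weight_dvd_of_const_subring (S : Subring ℂ) {κ : Type*} [Field κ] (φ : S →+* κ) (l : ℕ)
    [Fact l.Prime] [CharP κ l] (h5 : 5 ≤ l) (hS : ∀ n : ℕ, ¬ l ∣ n → ((n : ℂ))⁻¹ ∈ S) {k : ℤ}
    (F : ModularForm 𝒮ℒ k) (hF : ∀ n, (qExpansion 1 F).coeff n ∈ S) (c : κ) (hc : c ≠ 0)
    (h0 : φ ⟨(qExpansion 1 F).coeff 0, hF 0⟩ = c)
    (hn : ∀ n, n ≠ 0 → φ ⟨(qExpansion 1 F).coeff n, hF n⟩ = 0) : ((l : ℤ) - 1) ∣ k := by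
  refine weight_dvd_of_const S.subtype Subtype.val_injective φ l h5 ?_ F
    (PowerSeries.mk fun n => ⟨(qExpansion 1 F).coeff n, hF n⟩) ?_ c hc ?_
  · intro n hln
    have hn0 : (n : ℂ) ≠ 0 := by
      intro h
      apply hln
      have : n = 0 := by exact_mod_cast h
      rw [this]; exact dvd_zero _
    refine ⟨⟨(n : S), ⟨(n : ℂ)⁻¹, hS n hln⟩, ?_, ?_⟩, rfl⟩
    · ext; simp [hn0]
    · ext; simp [hn0]
  · ext n; simp
  · ext n
    rw [PowerSeries.coeff_map, PowerSeries.coeff_mk, PowerSeries.coeff_C]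
    split_ifs with h
    · subst h; exact h0
    · exact hn n h

end Fermat.Agent.S16.WT
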